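/-
S59lib / Join / Flat  (helper6)  — Project I, JOIN rings (helper5's architecture #h5-H26): **JOIN-flat**.

FLATNESS AT `p` DESCENDS ALONG A FINITE JOINTLY INJECTIVE FAMILY.

`R` a local `𝒪`-algebra (`𝒪` Noetherian), `ρ : GaloisRepAdic R`, `ψ k : R →ₐ[𝒪] A k` (`k` in a finite index type) local
homomorphisms into local `𝒪`-algebras `A k`, finite as `𝒪`-modules, JOINTLY INJECTIVE, with every quotient
`A k ⧸ (p ^ m)` finite.  If every `ρ.baseChangeAlong (ψ k)` is flat at `p`, so is `ρ`.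

* `flatLevel_comap`            : `FlatLevel p (ρ.baseChangeAlong ψ) I → FlatLevel p ρ (I.comap ψ)` (ANY local `ψ`, no
                                 surjectivity: `V / ψ⁻¹(I) V ↪ (A ⊗ V) / I (A ⊗ V)`, `V` free);
* `exists_pow_bound_fam`, `flatLevel_of_pieces_fam` : `S32lib/Comb` for a family of targets of varying type;
* `hsat_of_finite`, **`isFlatAt_of_hsat`** : helper9's family interface (ring homomorphisms + saturation `hsat`);
* **`isFlatAt_of_jointly_injective`** : the family version;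
* **`isFlatAt_of_pair`**, `isFlatAt_of_pair_isEquiv` : two maps `pr_A`, `pr_B` (the join of two trace rings);
* `finite_quotient_span_natCast_pow`  : `A ⧸ (p ^ m)` is finite for `A` finite over a DVR `𝒪` with finite residue field
                                        and `p ≠ 0` in `𝒪` (to discharge the finiteness hypothesis).
-/
import Mathlib
import Fermat.Agent.S32lib.Comb.Main
import Fermat.Agent.S56lib.Dict.CondEquiv

set_option autoImplicit false
set_option linter.unusedSectionVars false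
set_option linter.style.haveILetI false

noncomputable section

namespace Fermat.Agent.S59lib.Join

open IsLocalRing TensorProduct Fermat.Agent.S32lib

/-! ### the level of a base change -/

section Comap

variable {R A : Type} [CommRing R] [IsLocalRing R] [CommRing A] [IsLocalRing A]

/-- `1 ⊗ v ∈ I (A ⊗ V)` forces `v ∈ ψ⁻¹(I) V` (`V` free). -/
theorem mem_comap_smul_top_of_tmul_mem (ψ : R →+* A) (hψ : IsLocalHom ψ) (ρ : GaloisRepAdic R)
    (I : Ideal A) (v : ρ.V)
    (h : letI : Algebra R A := ψ.toAlgebra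
      ((1 : A) ⊗ₜ[R] v : (ρ.baseChangeAlong ψ hψ).V) ∈
        I • (⊤ : Submodule A (ρ.baseChangeAlong ψ hψ).V)) :
    v ∈ (I.comap ψ) • (⊤ : Submodule R ρ.V) := by
  letI : Algebra R A := ψ.toAlgebra
  let b : Module.Basis (Fin 2) R ρ.V := Module.finBasisOfFinrankEq R ρ.V ρ.finrank_eq
  have h1 := (mem_smul_top_iff_repr (Algebra.TensorProduct.basis A b) I _).1 h
  rw [mem_smul_top_iff_repr b]
  intro i
  have h2 := h1 i
  rw [Algebra.TensorProduct.basis_repr_tmul, one_smul, Finsupp.mapRange_apply] at h2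
  exact h2

/-- **the level `ψ⁻¹(I)` of `ρ` embeds into the level `I` of the base change of `ρ` along `ψ`.** -/
theorem flatLevel_comap {p : ℕ} [Fact p.Prime] (ψ : R →+* A) (hψ : IsLocalHom ψ)
    (ρ : GaloisRepAdic R) (I : Ideal A) (h : FlatLevel p (ρ.baseChangeAlong ψ hψ) I) :
    FlatLevel p ρ (I.comap ψ) := by
  letI : Algebra R A := ψ.toAlgebra
  let t : ρ.V →+ (ρ.baseChangeAlong ψ hψ).V :=
    (TensorProduct.mk R A ρ.V (1 : A)).toAddMonoidHom
  have ht : ∀ v, t v = (1 : A) ⊗ₜ[R] v := fun v => rfl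
  let f : ρ.V →+ ((ρ.baseChangeAlong ψ hψ).V ⧸
      (I • (⊤ : Submodule A (ρ.baseChangeAlong ψ hψ).V))) :=
    (Submodule.mkQ _).toAddMonoidHom.comp t
  refine HasFlatModel.of_subquotient h (fun σ => (ρ.ρ σ).toAddMonoidHom) f
    (Submodule.mkQ _).toAddMonoidHom ?_ ?_ (Submodule.mkQ_surjective _) ?_
  · intro σ v
    show Submodule.Quotient.mk (t (ρ.ρ σ v)) =
      (ρ.baseChangeAlong ψ hψ).levelAction I σ (Submodule.Quotient.mk (t v))
    rw [Comb.levelAction_mk]
    congr 1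
  · intro σ v
    rfl
  · intro v hv
    have h1 : t v ∈ I • (⊤ : Submodule A (ρ.baseChangeAlong ψ hψ).V) :=
      (Submodule.Quotient.mk_eq_zero _).1 hv
    exact (Submodule.Quotient.mk_eq_zero _).2 (mem_comap_smul_top_of_tmul_mem ψ hψ ρ I v h1)

end Comap

/-! ### the combination step for targets of varying type -/

section Bound

variable {𝒪 T κ : Type} [CommRing 𝒪] [IsNoetherianRing 𝒪] [CommRing T] [Algebra 𝒪 T] [Finite κ]
  {A : κ → Type} [∀ k, CommRing (A k)] [∀ k, Algebra 𝒪 (A k)] [∀ k, Module.Finite 𝒪 (A k)]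

/-- `S32lib.exists_pow_bound` for a family of targets of varying type, in `comap` form (no surjectivity):
bounded saturation index of the image of `T` in `∏ A k`. -/
theorem exists_pow_bound_fam (ψ : ∀ k, T →ₐ[𝒪] A k) (hψ : ∀ t : T, (∀ k, ψ k t = 0) → t = 0)
    (x : 𝒪) :
    ∃ c : ℕ, ∀ m : ℕ,
      (⨅ k, (Ideal.span {algebraMap 𝒪 (A k) x ^ (m + c)}).comap (ψ k : T →+* A k)) ≤
        Ideal.span {algebraMap 𝒪 T x ^ m} := by
  classical
  have : Module.Finite 𝒪 (∀ k, A k) := Module.Finite.pi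
  have : IsNoetherian 𝒪 (∀ k, A k) := isNoetherian_of_isNoetherianRing_of_finite 𝒪 (∀ k, A k)
  let Ψ : T →ₗ[𝒪] (∀ k, A k) := LinearMap.pi fun k => (ψ k).toLinearMap
  have hΨ : ∀ t k, Ψ t k = ψ k t := fun t k => rfl
  obtain ⟨c, hc⟩ := exists_saturation_bound (LinearMap.range Ψ) x
  refine ⟨c, fun m t ht => ?_⟩
  rw [Ideal.mem_iInf] at ht
  have hex : ∀ k, ∃ a : A k, ψ k t = x ^ (m + c) • a := by
    intro k
    have h1 := ht k
    rw [Ideal.mem_comap, Ideal.mem_span_singleton'] at h1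
    obtain ⟨a, ha⟩ := h1
    refine ⟨a, ?_⟩
    rw [Algebra.smul_def, map_pow, mul_comm]
    exact ha.symm
  choose y hy using hex
  have h1 : x ^ (m + c) • y = Ψ t := by
    funext k
    rw [Pi.smul_apply, hΨ, hy k]
  have h2 : x ^ c • y ∈ LinearMap.range Ψ := hc y (m + c) (by rw [h1]; exact ⟨t, rfl⟩)
  obtain ⟨t', ht'⟩ := h2
  have h3 : Ψ t = Ψ (x ^ m • t') := by
    rw [map_smul, ht', ← h1, pow_add, mul_smul]
  have h4 : t = x ^ m • t' := by
    have h5 : Ψ (t - x ^ m • t') = 0 := by rw [map_sub, h3, sub_self]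
    have h6 := hψ (t - x ^ m • t') (fun k => by rw [← hΨ, h5]; rfl)
    exact sub_eq_zero.mp h6
  rw [h4, Algebra.smul_def, map_pow]
  exact Ideal.mul_mem_right _ _ (Ideal.mem_span_singleton_self _)

variable [IsLocalRing T] {p : ℕ} [Fact p.Prime] {ρ : GaloisRepAdic T}

/-- `S32lib.flatLevel_of_pieces` for a family of targets of varying type, in `comap` form -/
theorem flatLevel_of_pieces_fam (hpT : (p : T) ∈ maximalIdeal T)
    (ψ : ∀ k, T →ₐ[𝒪] A k) (hψ : ∀ t : T, (∀ k, ψ k t = 0) → t = 0)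
    (h : ∀ (k : κ) (m : ℕ),
      FlatLevel p ρ ((Ideal.span {(p : A k) ^ m}).comap (ψ k : T →+* A k)))
    (I : Ideal T) (hI : Finite (T ⧸ I)) : FlatLevel p ρ I := by
  obtain ⟨c, hc⟩ := exists_pow_bound_fam ψ hψ ((p : ℕ) : 𝒪)
  obtain ⟨m, hm⟩ := exists_pow_mem_of_finite_quotient (p : T) hpT I
  have hcast : algebraMap 𝒪 T ((p : ℕ) : 𝒪) = (p : T) := map_natCast _ _
  have hcastA : ∀ k, algebraMap 𝒪 (A k) ((p : ℕ) : 𝒪) = (p : A k) := fun k => map_natCast _ _
  have h1 : FlatLevel p ρ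
      (⨅ k, (Ideal.span {(p : A k) ^ (m + c)}).comap (ψ k : T →+* A k)) :=
    FlatLevel.iInf _ fun k => h k (m + c)
  have h2 : (⨅ k, (Ideal.span {(p : A k) ^ (m + c)}).comap (ψ k : T →+* A k)) ≤ I := by
    have := hc m
    rw [hcast] at this
    simp only [hcastA] at this
    exact this.trans ((Ideal.span_singleton_le_iff_mem I).mpr hm)
  exact FlatLevel.mono h2 h1

end Bound

/-! ### the saturation hypothesis `hsat` (helper9's interface for families) -/

section Sat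

variable {𝒪 T κ : Type} [CommRing 𝒪] [IsNoetherianRing 𝒪] [CommRing T] [Algebra 𝒪 T] [Finite κ]
  {A : κ → Type} [∀ k, CommRing (A k)] [∀ k, Algebra 𝒪 (A k)] [∀ k, Module.Finite 𝒪 (A k)]

/-- **`hsat` for a jointly injective family of `𝒪`-algebra maps into finite `𝒪`-modules** (`𝒪` Noetherian): for every
`n` there is `m` such that `ψ k x ∈ (p^m)` for all `k` forces `x ∈ (p^n)`. -/
theorem hsat_of_finite (ψ : ∀ k, T →ₐ[𝒪] A k) (hψ : ∀ t : T, (∀ k, ψ k t = 0) → t = 0) (p : ℕ) :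
    ∀ n : ℕ, ∃ m : ℕ, ∀ x : T, (∀ k, ψ k x ∈ Ideal.span {((p ^ m : ℕ) : A k)}) →
      x ∈ Ideal.span {((p ^ n : ℕ) : T)} := by
  obtain ⟨c, hc⟩ := exists_pow_bound_fam ψ hψ ((p : ℕ) : 𝒪)
  intro n
  refine ⟨n + c, fun x hx => ?_⟩
  have h1 := hc n
  have hcast : algebraMap 𝒪 T ((p : ℕ) : 𝒪) = (p : T) := map_natCast _ _
  have hcastA : ∀ k, algebraMap 𝒪 (A k) ((p : ℕ) : 𝒪) = (p : A k) := fun k => map_natCast _ _
  rw [hcast] at h1
  simp only [hcastA] at h1
  rw [Nat.cast_pow]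
  apply h1
  rw [Ideal.mem_iInf]
  intro k
  rw [Ideal.mem_comap]
  have h2 := hx k
  rw [Nat.cast_pow] at h2
  exact h2

end Sat

section SatMain

variable {R κ : Type} [CommRing R] [IsLocalRing R] [Finite κ]
  {A : κ → Type} [∀ k, CommRing (A k)] [∀ k, IsLocalRing (A k)]

/-- **JOIN-flat, `hsat` version** (helper9's family interface: ring homomorphisms + the saturation hypothesis). -/
theorem isFlatAt_of_hsat {p : ℕ} (hp : p.Prime) (hpR : (p : R) ∈ maximalIdeal R)
    (hfin : Finite (ResidueField R)) (ρ : GaloisRepAdic R)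
    (ψ : ∀ k, R →+* A k) (hψl : ∀ k, IsLocalHom (ψ k))
    (hsat : ∀ n : ℕ, ∃ m : ℕ, ∀ x : R, (∀ k, ψ k x ∈ Ideal.span {((p ^ m : ℕ) : A k)}) →
      x ∈ Ideal.span {((p ^ n : ℕ) : R)})
    (hfinA : ∀ (k : κ) (m : ℕ), Finite (A k ⧸ Ideal.span {((p ^ m : ℕ) : A k)}))
    (hflat : ∀ k, (ρ.baseChangeAlong (ψ k) (hψl k)).IsFlatAt p) :
    ρ.IsFlatAt p := by
  haveI : Fact p.Prime := ⟨hp⟩
  refine isFlatAt_of_flatLevel hfin fun I hI => ?_
  obtain ⟨n, hn⟩ := exists_pow_mem_of_finite_quotient (p : R) hpR I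
  obtain ⟨m, hm⟩ := hsat n
  have h1 : FlatLevel p ρ (⨅ k, (Ideal.span {((p ^ m : ℕ) : A k)}).comap (ψ k)) :=
    FlatLevel.iInf _ fun k => flatLevel_comap (ψ k) (hψl k) ρ _ ((hflat k).2 _ (hfinA k m))
  refine FlatLevel.mono ?_ h1
  intro x hx
  rw [Ideal.mem_iInf] at hx
  have h2 := hm x fun k => Ideal.mem_comap.1 (hx k)
  rw [Nat.cast_pow] at h2
  exact (Ideal.span_singleton_le_iff_mem I).mpr hn h2

end SatMain

/-! ### JOIN-flat -/

section Main

variable {𝒪 R κ : Type} [CommRing 𝒪] [IsNoetherianRing 𝒪] [CommRing R] [IsLocalRing R]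
  [Algebra 𝒪 R] [Finite κ]
  {A : κ → Type} [∀ k, CommRing (A k)] [∀ k, IsLocalRing (A k)] [∀ k, Algebra 𝒪 (A k)]
  [∀ k, Module.Finite 𝒪 (A k)]

/-- **JOIN-flat, family version**: flatness at `p` descends along a finite jointly injective family of local
`𝒪`-algebra homomorphisms (NOT necessarily surjective) into local `𝒪`-algebras that are finite `𝒪`-modules with
finite quotients modulo `p^m`. -/
theorem isFlatAt_of_jointly_injective {p : ℕ} (hp : p.Prime) (hpR : (p : R) ∈ maximalIdeal R)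
    (hfin : Finite (ResidueField R)) (ρ : GaloisRepAdic R)
    (ψ : ∀ k, R →ₐ[𝒪] A k) (hψl : ∀ k, IsLocalHom (ψ k : R →+* A k))
    (hψ : ∀ t : R, (∀ k, ψ k t = 0) → t = 0)
    (hfinA : ∀ (k : κ) (m : ℕ), Finite (A k ⧸ Ideal.span {(p : A k) ^ m}))
    (hflat : ∀ k, (ρ.baseChangeAlong (ψ k : R →+* A k) (hψl k)).IsFlatAt p) :
    ρ.IsFlatAt p := by
  haveI : Fact p.Prime := ⟨hp⟩
  refine isFlatAt_of_flatLevel hfin (flatLevel_of_pieces_fam hpR ψ hψ fun k m => ?_)
  exact flatLevel_comap (ψ k : R →+* A k) (hψl k) ρ _ ((hflat k).2 _ (hfinA k m))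

end Main

section Pair

/-- the two-element family of types -/
def PairFam (A B : Type) : Bool → Type
  | true => A
  | false => B

instance PairFam.instCommRing (A B : Type) [CommRing A] [CommRing B] :
    ∀ k, CommRing (PairFam A B k)
  | true => inferInstanceAs (CommRing A)
  | false => inferInstanceAs (CommRing B)

instance PairFam.instIsLocalRing (A B : Type) [CommRing A] [CommRing B] [IsLocalRing A]
    [IsLocalRing B] : ∀ k, IsLocalRing (PairFam A B k)
  | true => inferInstanceAs (IsLocalRing A)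
  | false => inferInstanceAs (IsLocalRing B)

instance PairFam.instAlgebra (𝒪 A B : Type) [CommRing 𝒪] [CommRing A] [CommRing B] [Algebra 𝒪 A]
    [Algebra 𝒪 B] : ∀ k, Algebra 𝒪 (PairFam A B k)
  | true => inferInstanceAs (Algebra 𝒪 A)
  | false => inferInstanceAs (Algebra 𝒪 B)

instance PairFam.instFinite (𝒪 A B : Type) [CommRing 𝒪] [CommRing A] [CommRing B] [Algebra 𝒪 A]
    [Algebra 𝒪 B] [Module.Finite 𝒪 A] [Module.Finite 𝒪 B] :
    ∀ k, Module.Finite 𝒪 (PairFam A B k)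
  | true => inferInstanceAs (Module.Finite 𝒪 A)
  | false => inferInstanceAs (Module.Finite 𝒪 B)

variable {𝒪 R A B : Type} [CommRing 𝒪] [IsNoetherianRing 𝒪] [CommRing R] [IsLocalRing R]
  [Algebra 𝒪 R] [CommRing A] [IsLocalRing A] [Algebra 𝒪 A] [Module.Finite 𝒪 A]
  [CommRing B] [IsLocalRing B] [Algebra 𝒪 B] [Module.Finite 𝒪 B]

/-- the two maps as a family -/
def pairMap (prA : R →ₐ[𝒪] A) (prB : R →ₐ[𝒪] B) : ∀ k, R →ₐ[𝒪] PairFam A B k
  | true => prA
  | false => prB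

/-- **JOIN-flat, two maps** (the join of two trace rings: `R ⊆ A × B`, `prA`, `prB` the projections). -/
theorem isFlatAt_of_pair {p : ℕ} (hp : p.Prime) (hpR : (p : R) ∈ maximalIdeal R)
    (hfin : Finite (ResidueField R)) (ρ : GaloisRepAdic R)
    (prA : R →ₐ[𝒪] A) (prB : R →ₐ[𝒪] B) (hA : IsLocalHom (prA : R →+* A))
    (hB : IsLocalHom (prB : R →+* B))
    (hinj : ∀ t : R, prA t = 0 → prB t = 0 → t = 0)
    (hfinA : ∀ m : ℕ, Finite (A ⧸ Ideal.span {(p : A) ^ m}))
    (hfinB : ∀ m : ℕ, Finite (B ⧸ Ideal.span {(p : B) ^ m}))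
    (hflatA : (ρ.baseChangeAlong (prA : R →+* A) hA).IsFlatAt p)
    (hflatB : (ρ.baseChangeAlong (prB : R →+* B) hB).IsFlatAt p) :
    ρ.IsFlatAt p := by
  have hl : ∀ k, IsLocalHom (pairMap prA prB k : R →+* PairFam A B k) := by
    intro k
    cases k
    · exact hB
    · exact hA
  refine isFlatAt_of_jointly_injective (A := PairFam A B) hp hpR hfin ρ (pairMap prA prB) hl
    (fun t ht => hinj t (ht true) (ht false)) ?_ ?_
  · intro k m
    cases k
    · exact hfinB m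
    · exact hfinA m
  · intro k
    cases k
    · exact hflatB
    · exact hflatA

/-- **JOIN-flat, two maps, `IsEquiv` form**: the push-forwards of `ρ` are equivalent to flat representations. -/
theorem isFlatAt_of_pair_isEquiv {p : ℕ} (hp : p.Prime) (hpR : (p : R) ∈ maximalIdeal R)
    (hfin : Finite (ResidueField R)) (ρ : GaloisRepAdic R)
    (prA : R →ₐ[𝒪] A) (prB : R →ₐ[𝒪] B) (hA : IsLocalHom (prA : R →+* A))
    (hB : IsLocalHom (prB : R →+* B))
    (hinj : ∀ t : R, prA t = 0 → prB t = 0 → t = 0)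
    (hfinA : ∀ m : ℕ, Finite (A ⧸ Ideal.span {(p : A) ^ m}))
    (hfinB : ∀ m : ℕ, Finite (B ⧸ Ideal.span {(p : B) ^ m}))
    (ρA : GaloisRepAdic A) (ρB : GaloisRepAdic B)
    (hEA : (ρ.baseChangeAlong (prA : R →+* A) hA).IsEquiv ρA)
    (hEB : (ρ.baseChangeAlong (prB : R →+* B) hB).IsEquiv ρB)
    (hflatA : ρA.IsFlatAt p) (hflatB : ρB.IsFlatAt p) : ρ.IsFlatAt p := by
  obtain ⟨eA⟩ := hEA
  obtain ⟨eB⟩ := hEB
  exact isFlatAt_of_pair hp hpR hfin ρ prA prB hA hB hinj hfinA hfinB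
    (Fermat.Agent.S56lib.Dict.isFlatAt_of_equiv eA.symm hflatA)
    (Fermat.Agent.S56lib.Dict.isFlatAt_of_equiv eB.symm hflatB)

end Pair

/-! ### the finiteness hypothesis -/

section Fin

/-- `A ⧸ (p ^ m)` is finite for `A` a finite module over a Noetherian local ring `𝒪` with finite residue field in which
a power of the maximal ideal lies in `(p)` (e.g. a DVR of characteristic `0` and residue characteristic `p`). -/
theorem finite_quotient_span_natCast_pow {𝒪 A : Type} [CommRing 𝒪] [IsLocalRing 𝒪]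
    [IsNoetherianRing 𝒪] [Finite (ResidueField 𝒪)] [CommRing A] [Algebra 𝒪 A] [Module.Finite 𝒪 A]
    (p : ℕ) (hp : ∃ n : ℕ, maximalIdeal 𝒪 ^ n ≤ Ideal.span {(p : 𝒪)}) (m : ℕ) :
    Finite (A ⧸ Ideal.span {(p : A) ^ m}) := by
  classical
  obtain ⟨n, hn⟩ := hp
  -- `𝒪 ⧸ 𝔪^(n m)` is finite
  haveI : Finite (𝒪 ⧸ maximalIdeal 𝒪) := inferInstanceAs (Finite (ResidueField 𝒪))
  haveI hfinO : Finite (𝒪 ⧸ maximalIdeal 𝒪 ^ (n * m)) :=
    Ideal.finite_quotient_pow (IsNoetherian.noetherian _) (n * m)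
  have hle : maximalIdeal 𝒪 ^ (n * m) ≤ Ideal.span {(p : 𝒪) ^ m} := by
    rw [pow_mul, ← Ideal.span_singleton_pow]
    exact Ideal.pow_right_mono hn m
  -- generators
  obtain ⟨s, hs⟩ := (Module.Finite.fg_top : (⊤ : Submodule 𝒪 A).FG)
  let g : (s → 𝒪 ⧸ maximalIdeal 𝒪 ^ (n * m)) → A ⧸ Ideal.span {(p : A) ^ m} := fun c =>
    ∑ i : s, Ideal.Quotient.mk _ (algebraMap 𝒪 A (Quotient.out (c i)) * (i : A))
  have hg : Function.Surjective g := by
    intro y
    obtain ⟨a, rfl⟩ := Ideal.Quotient.mk_surjective y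
    have ha : a ∈ Submodule.span 𝒪 (s : Set A) := hs ▸ Submodule.mem_top
    obtain ⟨c, hc⟩ := (Submodule.mem_span_finset' (s := s)).1 ha
    refine ⟨fun i => Ideal.Quotient.mk _ (c i), ?_⟩
    show ∑ i : s, Ideal.Quotient.mk _ (algebraMap 𝒪 A (Quotient.out
      (Ideal.Quotient.mk (maximalIdeal 𝒪 ^ (n * m)) (c i))) * (i : A)) = Ideal.Quotient.mk _ a
    rw [← hc, map_sum]
    refine Finset.sum_congr rfl fun i _ => ?_
    rw [Algebra.smul_def, Ideal.Quotient.eq, ← sub_mul, ← map_sub]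
    refine Ideal.mul_mem_right _ _ ?_
    have h1 : Quotient.out (Ideal.Quotient.mk (maximalIdeal 𝒪 ^ (n * m)) (c i)) - c i ∈
        maximalIdeal 𝒪 ^ (n * m) := by
      rw [← Ideal.Quotient.eq]
      exact Quotient.out_eq _
    obtain ⟨u, hu⟩ := Ideal.mem_span_singleton'.1 (hle h1)
    rw [← hu, map_mul, map_pow, map_natCast]
    exact Ideal.mul_mem_left _ _ (Ideal.mem_span_singleton_self _)
  exact Finite.of_surjective g hg

/-- the DVR case: `𝒪` a DVR of characteristic `0` with finite residue field, `p ≠ 0`. -/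
theorem finite_quotient_span_natCast_pow_of_dvr {𝒪 A : Type} [CommRing 𝒪] [IsDomain 𝒪]
    [IsDiscreteValuationRing 𝒪] [Finite (ResidueField 𝒪)] [CharZero 𝒪] [CommRing A] [Algebra 𝒪 A]
    [Module.Finite 𝒪 A] (p : ℕ) (hp : p ≠ 0) (m : ℕ) :
    Finite (A ⧸ Ideal.span {(p : A) ^ m}) := by
  refine finite_quotient_span_natCast_pow (𝒪 := 𝒪) p ?_ m
  obtain ⟨ϖ, hϖ⟩ := IsDiscreteValuationRing.exists_irreducible 𝒪
  have hne : Ideal.span {(p : 𝒪)} ≠ ⊥ := by
    rw [Ne, Ideal.span_singleton_eq_bot]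
    exact Nat.cast_ne_zero.mpr hp
  obtain ⟨n, hn⟩ := IsDiscreteValuationRing.ideal_eq_span_pow_irreducible hne hϖ
  refine ⟨n, ?_⟩
  rw [hn, hϖ.maximalIdeal_eq, Ideal.span_singleton_pow]

end Fin

end Fermat.Agent.S59lib.Join

end
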