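/-
S59lib / Join / TrRing (helper4) — PROJECT I, JOIN-core for the trace rings `Hub.TrRingG`:

* `joinTr FA FB habs h2 hs₀ : JoinPkg 𝒪 ρbar FA.ρ FB.ρ` for two trace rings finite over `𝒪` (of arbitrary types);
* `JoinPkg.toTrRingG` : the join is a trace ring of type `𝒟S` as soon as its representation is of type `𝒟S`
  (the type is inherited by JOIN-flat / JOIN-strict);
* `joinTr_prA_surjective`, `joinTr_prB_surjective`.
-/
import Mathlib
import Fermat.Agent.S59lib.Join.Core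
import Fermat.Agent.S59lib.Hub.Ctx

set_option autoImplicit false
set_option linter.unusedSectionVars false
set_option linter.style.haveILetI false

noncomputable section

namespace Fermat.Agent.S59lib.Join

open IsLocalRing Polynomial Fermat.Agent.TeamA.Rep Fermat.Agent.S59lib.Hub

local notation "Γℚ" => (AlgebraicClosure ℚ ≃ₐ[ℚ] AlgebraicClosure ℚ)

variable {𝒪 : Type} [CommRing 𝒪] [IsDomain 𝒪] [IsDiscreteValuationRing 𝒪]
  [IsAdicComplete (maximalIdeal 𝒪) 𝒪] {ρbar : ResidualGaloisRep (ResidueField 𝒪)} {p : ℕ}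

/-- the join is a trace ring of type `𝒟S` when its representation is of type `𝒟S` -/
def JoinPkg.toTrRingG {A B : Type} [CommRing A] [CommRing B] [IsLocalRing A] [IsLocalRing B]
    [Algebra 𝒪 A] [Algebra 𝒪 B] [IsLocalHom (algebraMap 𝒪 A)] [IsLocalHom (algebraMap 𝒪 B)]
    {ρA : GaloisRepAdic A} {ρB : GaloisRepAdic B} (P : JoinPkg 𝒪 ρbar ρA ρB) (hp : p ≠ 0)
    (hdA : ρA.DetIsCyclotomic p) (hdB : ρB.DetIsCyclotomic p)
    {𝒟S : ∀ ⦃A : Type⦄ [CommRing A] [IsLocalRing A] [Algebra 𝒪 A], GaloisRepAdic A → Prop}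
    (hty : 𝒟S P.ρ) : TrRingG 𝒪 ρbar p 𝒟S where
  R := P.R
  residue_surjective := P.residue_surjective
  ρ := P.ρ
  isType := hty
  detCyc := P.detCyc p hp hdA hdB
  residual_isEquiv := P.residual_isEquiv
  trace_gen := P.trace_gen

variable {𝒟A 𝒟B : ∀ ⦃A : Type⦄ [CommRing A] [IsLocalRing A] [Algebra 𝒪 A], GaloisRepAdic A → Prop}
  (FA : TrRingG 𝒪 ρbar p 𝒟A) (FB : TrRingG 𝒪 ρbar p 𝒟B)
  [Module.Finite 𝒪 FA.R] [Module.Finite 𝒪 FB.R]

/-- **the join of two trace rings finite over `𝒪`** -/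
def joinTr (habs : ρbar.IsAbsolutelyIrreducible) (h2 : IsUnit (2 : 𝒪))
    (hs₀ : ∃ (s₀ : Γℚ) (α β : ResidueField 𝒪), α ≠ β ∧
      LinearMap.charpoly (ρbar.ρ s₀) = (X - C α) * (X - C β)) :
    JoinPkg 𝒪 ρbar FA.ρ FB.ρ :=
  join habs h2 hs₀ FA.residual_isEquiv FB.residual_isEquiv

theorem joinTr_prA_surjective (habs : ρbar.IsAbsolutelyIrreducible) (h2 : IsUnit (2 : 𝒪))
    (hs₀ : ∃ (s₀ : Γℚ) (α β : ResidueField 𝒪), α ≠ β ∧
      LinearMap.charpoly (ρbar.ρ s₀) = (X - C α) * (X - C β)) :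
    Function.Surjective (joinTr FA FB habs h2 hs₀).prA :=
  (joinTr FA FB habs h2 hs₀).prA_surjective FA.trace_gen

theorem joinTr_prB_surjective (habs : ρbar.IsAbsolutelyIrreducible) (h2 : IsUnit (2 : 𝒪))
    (hs₀ : ∃ (s₀ : Γℚ) (α β : ResidueField 𝒪), α ≠ β ∧
      LinearMap.charpoly (ρbar.ρ s₀) = (X - C α) * (X - C β)) :
    Function.Surjective (joinTr FA FB habs h2 hs₀).prB :=
  (joinTr FA FB habs h2 hs₀).prB_surjective FB.trace_gen

/-- the join of two trace rings as a trace ring -/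
def joinTrRing (habs : ρbar.IsAbsolutelyIrreducible) (h2 : IsUnit (2 : 𝒪))
    (hs₀ : ∃ (s₀ : Γℚ) (α β : ResidueField 𝒪), α ≠ β ∧
      LinearMap.charpoly (ρbar.ρ s₀) = (X - C α) * (X - C β)) (hp : p ≠ 0)
    {𝒟S : ∀ ⦃A : Type⦄ [CommRing A] [IsLocalRing A] [Algebra 𝒪 A], GaloisRepAdic A → Prop}
    (hty : 𝒟S (joinTr FA FB habs h2 hs₀).ρ) : TrRingG 𝒪 ρbar p 𝒟S :=
  (joinTr FA FB habs h2 hs₀).toTrRingG hp FA.detCyc FB.detCyc hty

end Fermat.Agent.S59lib.Join
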