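/-
S59lib / Join / Alg (helper4) — PROJECT I, JOIN-core, part (a): the commutative algebra of a subalgebra
`J ⊆ A ×_k B` of the fibre product of two finite local `𝒪`-algebras with residue field `k`.

* `inv_mem_of_isIntegral` : a subalgebra contains the integral inverses of its elements;
* `fib 𝒪 A B` : the fibre product `A ×_k B` as a subalgebra of `A × B`;
* for `J ≤ fib 𝒪 A B`, `A`, `B` finite over `𝒪` : `J` is local (`isLocalRing_of_le_fib`), finite, noetherian,
  complete, `𝒪 → J` is local, the residue field is `k`, and the projections are local;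
* Artin–Rees in the two forms used for the continuity and for the determinant (`exists_pow_smul_of_mem`,
  `exists_mem_pow_of_mem`, `exists_mem_span_of_mem`).
-/
import Mathlib
import Fermat.Prelude.Thm_IsLocalRing_isAdicComplete_of_module_finite

set_option autoImplicit false
set_option linter.unusedSectionVars false
set_option linter.style.haveILetI false

namespace Fermat.Agent.S59lib.Join

open IsLocalRing

section Inv

variable {R C : Type*} [CommRing R] [CommRing C] [Algebra R C]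

/-- a subalgebra contains the inverse of `x ∈ S` as soon as this inverse is integral over the base -/
theorem inv_mem_of_isIntegral (S : Subalgebra R C) {x y : C} (hx : x ∈ S) (hxy : x * y = 1)
    (hy : IsIntegral R y) : y ∈ S := by
  obtain ⟨f, hf, hfy⟩ := hy
  have h1 := hfy
  rw [Polynomial.eval₂_eq_sum_range, Finset.sum_range_succ, hf.coeff_natDegree, map_one, one_mul]
    at h1
  rcases Nat.eq_zero_or_pos f.natDegree with h0 | hpos
  · rw [h0, Finset.sum_range_zero, zero_add, pow_zero] at h1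
    have : y = 0 := by rw [← mul_one y, h1, mul_zero]
    rw [this]; exact S.zero_mem
  · set n := f.natDegree with hn
    have hyx : ∀ i j : ℕ, x ^ (i + j) * y ^ i = x ^ j := by
      intro i j
      rw [pow_add, mul_comm (x ^ i), mul_assoc, ← mul_pow, hxy, one_pow, mul_one]
    have h2 : y = -∑ i ∈ Finset.range n, algebraMap R C (f.coeff i) * x ^ (n - 1 - i) := by
      have h3 : x ^ (n - 1) * (∑ i ∈ Finset.range n, algebraMap R C (f.coeff i) * y ^ i + y ^ n)
          = 0 := by rw [h1, mul_zero]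
      rw [mul_add, Finset.mul_sum] at h3
      have h4 : x ^ (n - 1) * y ^ n = y := by
        have : n = (n - 1) + 1 := by omega
        conv_lhs => rw [this, pow_succ, ← mul_assoc]
        have h5 := hyx (n - 1) 0
        rw [add_zero, pow_zero] at h5
        rw [Nat.add_sub_cancel, h5, one_mul]
      rw [h4] at h3
      have h6 : ∀ i ∈ Finset.range n, x ^ (n - 1) * (algebraMap R C (f.coeff i) * y ^ i) =
          algebraMap R C (f.coeff i) * x ^ (n - 1 - i) := by
        intro i hi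
        have hi' : i < n := Finset.mem_range.mp hi
        have : n - 1 = i + (n - 1 - i) := by omega
        rw [mul_left_comm]
        congr 1
        conv_lhs => rw [this]
        exact hyx i (n - 1 - i)
      rw [Finset.sum_congr rfl h6] at h3
      exact eq_neg_of_add_eq_zero_right h3
    rw [h2]
    refine S.neg_mem (S.sum_mem fun i _ => S.mul_mem (S.algebraMap_mem _) (S.pow_mem hx _))

end Inv

section Fib

variable (𝒪 : Type*) [CommRing 𝒪] [IsLocalRing 𝒪]
  (A B : Type*) [CommRing A] [CommRing B] [IsLocalRing A] [IsLocalRing B]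
  [Algebra 𝒪 A] [Algebra 𝒪 B]

/-- **the fibre product `A ×_k B`** of two local `𝒪`-algebras over the residue field of `𝒪` -/
def fib : Subalgebra 𝒪 (A × B) where
  carrier := {x | ∃ c : 𝒪, x.1 - algebraMap 𝒪 A c ∈ maximalIdeal A ∧
    x.2 - algebraMap 𝒪 B c ∈ maximalIdeal B}
  mul_mem' := by
    rintro x y ⟨c, hc1, hc2⟩ ⟨d, hd1, hd2⟩
    refine ⟨c * d, ?_, ?_⟩
    · have : (x * y).1 - algebraMap 𝒪 A (c * d) =
          (x.1 - algebraMap 𝒪 A c) * y.1 + algebraMap 𝒪 A c * (y.1 - algebraMap 𝒪 A d) := by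
        rw [map_mul, Prod.fst_mul]; ring
      rw [this]
      exact Ideal.add_mem _ (Ideal.mul_mem_right _ _ hc1) (Ideal.mul_mem_left _ _ hd1)
    · have : (x * y).2 - algebraMap 𝒪 B (c * d) =
          (x.2 - algebraMap 𝒪 B c) * y.2 + algebraMap 𝒪 B c * (y.2 - algebraMap 𝒪 B d) := by
        rw [map_mul, Prod.snd_mul]; ring
      rw [this]
      exact Ideal.add_mem _ (Ideal.mul_mem_right _ _ hc2) (Ideal.mul_mem_left _ _ hd2)
  add_mem' := by
    rintro x y ⟨c, hc1, hc2⟩ ⟨d, hd1, hd2⟩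
    refine ⟨c + d, ?_, ?_⟩
    · have : (x + y).1 - algebraMap 𝒪 A (c + d) =
          (x.1 - algebraMap 𝒪 A c) + (y.1 - algebraMap 𝒪 A d) := by
        rw [map_add, Prod.fst_add]; ring
      rw [this]
      exact Ideal.add_mem _ hc1 hd1
    · have : (x + y).2 - algebraMap 𝒪 B (c + d) =
          (x.2 - algebraMap 𝒪 B c) + (y.2 - algebraMap 𝒪 B d) := by
        rw [map_add, Prod.snd_add]; ring
      rw [this]
      exact Ideal.add_mem _ hc2 hd2
  algebraMap_mem' := by
    intro c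
    refine ⟨c, ?_, ?_⟩
    · rw [Prod.algebraMap_apply]; simp
    · rw [Prod.algebraMap_apply]; simp

variable {𝒪 A B}

theorem mem_fib {x : A × B} : x ∈ fib 𝒪 A B ↔ ∃ c : 𝒪, x.1 - algebraMap 𝒪 A c ∈ maximalIdeal A ∧
    x.2 - algebraMap 𝒪 B c ∈ maximalIdeal B := Iff.rfl

end Fib

section Local

variable {𝒪 : Type*} [CommRing 𝒪] [IsLocalRing 𝒪]

theorem algebraMap_mem_maximalIdeal {R : Type*} [CommRing R] [IsLocalRing R] [Algebra 𝒪 R]
    [IsLocalHom (algebraMap 𝒪 R)] {c : 𝒪} (hc : c ∈ maximalIdeal 𝒪) :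
    algebraMap 𝒪 R c ∈ maximalIdeal R := by
  rw [mem_maximalIdeal, mem_nonunits_iff] at hc ⊢
  exact fun h => hc (isUnit_of_map_unit (algebraMap 𝒪 R) c h)

theorem mem_maximalIdeal_iff_of_sub_mem {R : Type*} [CommRing R] [IsLocalRing R] [Algebra 𝒪 R]
    [IsLocalHom (algebraMap 𝒪 R)] {c : 𝒪} {y : R} (hy : y - algebraMap 𝒪 R c ∈ maximalIdeal R) :
    y ∈ maximalIdeal R ↔ c ∈ maximalIdeal 𝒪 := by
  constructor
  · intro hy'
    have h3 : algebraMap 𝒪 R c ∈ maximalIdeal R := by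
      have := Ideal.sub_mem _ hy' hy
      rwa [sub_sub_cancel] at this
    rw [mem_maximalIdeal, mem_nonunits_iff] at h3 ⊢
    exact fun h => h3 (h.map (algebraMap 𝒪 R))
  · intro hc
    have := Ideal.add_mem _ hy (algebraMap_mem_maximalIdeal (R := R) hc)
    rwa [sub_add_cancel] at this

variable {A B : Type*} [CommRing A] [CommRing B] [IsLocalRing A] [IsLocalRing B]
  [Algebra 𝒪 A] [Algebra 𝒪 B] [IsLocalHom (algebraMap 𝒪 A)] [IsLocalHom (algebraMap 𝒪 B)]

/-- in the fibre product the two components are units together -/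
theorem fst_mem_iff_snd_mem {x : A × B} (hx : x ∈ fib 𝒪 A B) :
    x.1 ∈ maximalIdeal A ↔ x.2 ∈ maximalIdeal B := by
  obtain ⟨c, h1, h2⟩ := hx
  rw [mem_maximalIdeal_iff_of_sub_mem h1, mem_maximalIdeal_iff_of_sub_mem h2]

variable [Module.Finite 𝒪 A] [Module.Finite 𝒪 B] (J : Subalgebra 𝒪 (A × B)) (hJ : J ≤ fib 𝒪 A B)

include hJ

/-- the units of `J` -/
theorem isUnit_iff_fst (x : J) : IsUnit x ↔ IsUnit (x : A × B).1 := by
  constructor
  · intro h
    exact (h.map ((AlgHom.fst 𝒪 A B).comp J.val))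
  · intro h
    have h2 : IsUnit (x : A × B).2 := by
      by_contra hn
      have := (fst_mem_iff_snd_mem (hJ x.2)).mpr ((mem_maximalIdeal _).mpr hn)
      exact (mem_maximalIdeal _).mp this h
    obtain ⟨u, hu⟩ := h
    obtain ⟨v, hv⟩ := h2
    set y : A × B := ((u⁻¹ : Aˣ), (v⁻¹ : Bˣ)) with hy
    have hxy : (x : A × B) * y = 1 := by
      ext
      · rw [Prod.fst_mul, ← hu, hy]; simp
      · rw [Prod.snd_mul, ← hv, hy]; simp
    have hyJ : y ∈ J := inv_mem_of_isIntegral J x.2 hxy (Algebra.IsIntegral.isIntegral y)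
    refine IsUnit.of_mul_eq_one (⟨y, hyJ⟩ : J) ?_
    exact Subtype.ext hxy

theorem isUnit_iff_snd (x : J) : IsUnit x ↔ IsUnit (x : A × B).2 := by
  rw [isUnit_iff_fst J hJ]
  have := fst_mem_iff_snd_mem (hJ x.2)
  rw [mem_maximalIdeal, mem_maximalIdeal, mem_nonunits_iff, mem_nonunits_iff] at this
  exact not_iff_not.mp this

/-- **`J` is local** -/
theorem isLocalRing_of_le_fib : IsLocalRing J := by
  haveI : Nontrivial J := ⟨⟨0, 1, fun h => by
    have := congrArg (fun z : J => (z : A × B).1) h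
    simp at this⟩⟩
  refine IsLocalRing.of_nonunits_add ?_
  intro x y hx hy
  rw [mem_nonunits_iff, isUnit_iff_fst J hJ] at hx hy ⊢
  have hx' : (x : A × B).1 ∈ maximalIdeal A := (mem_maximalIdeal _).mpr hx
  have hy' : (y : A × B).1 ∈ maximalIdeal A := (mem_maximalIdeal _).mpr hy
  have := Ideal.add_mem _ hx' hy'
  exact (mem_maximalIdeal _).mp this

variable [IsLocalRing J]

theorem mem_maximalIdeal_iff_fst (x : J) :
    x ∈ maximalIdeal J ↔ (x : A × B).1 ∈ maximalIdeal A := by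
  rw [mem_maximalIdeal, mem_maximalIdeal, mem_nonunits_iff, mem_nonunits_iff, isUnit_iff_fst J hJ]

theorem mem_maximalIdeal_iff_snd (x : J) :
    x ∈ maximalIdeal J ↔ (x : A × B).2 ∈ maximalIdeal B := by
  rw [mem_maximalIdeal, mem_maximalIdeal, mem_nonunits_iff, mem_nonunits_iff, isUnit_iff_snd J hJ]

theorem isLocalHom_algebraMap_of_le_fib : IsLocalHom (algebraMap 𝒪 J) := by
  refine ⟨fun c hc => ?_⟩
  rw [isUnit_iff_fst J hJ] at hc
  exact isUnit_of_map_unit (algebraMap 𝒪 A) c hc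

theorem isLocalHom_fst_of_le_fib :
    IsLocalHom (((AlgHom.fst 𝒪 A B).comp J.val : J →ₐ[𝒪] A) : J →+* A) :=
  ⟨fun x hx => (isUnit_iff_fst J hJ x).mpr hx⟩

theorem isLocalHom_snd_of_le_fib :
    IsLocalHom (((AlgHom.snd 𝒪 A B).comp J.val : J →ₐ[𝒪] B) : J →+* B) :=
  ⟨fun x hx => (isUnit_iff_snd J hJ x).mpr hx⟩

/-- the residue field of `J` is the residue field of `𝒪` -/
theorem residue_surjective_of_le_fib : Function.Surjective (residue J ∘ algebraMap 𝒪 J) := by
  intro z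
  obtain ⟨x, rfl⟩ := residue_surjective z
  obtain ⟨c, hc, -⟩ := hJ x.2
  refine ⟨c, ?_⟩
  rw [Function.comp_apply]
  symm
  rw [← sub_eq_zero, ← map_sub, residue_eq_zero_iff, mem_maximalIdeal_iff_fst J hJ]
  exact hc

omit hJ in
theorem finite_of_subalgebra [IsNoetherianRing 𝒪] : Module.Finite 𝒪 J :=
  Module.Finite.of_injective J.val.toLinearMap Subtype.val_injective

omit hJ in
theorem isNoetherianRing_of_subalgebra [IsNoetherianRing 𝒪] : IsNoetherianRing J :=
  haveI := finite_of_subalgebra (𝒪 := 𝒪) J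
  IsNoetherianRing.of_finite 𝒪 J

theorem isAdicComplete_of_le_fib [IsNoetherianRing 𝒪] [IsAdicComplete (maximalIdeal 𝒪) 𝒪] :
    IsAdicComplete (maximalIdeal J) J :=
  haveI := finite_of_subalgebra (𝒪 := 𝒪) J
  haveI := isLocalHom_algebraMap_of_le_fib J hJ
  IsLocalRing.isAdicComplete_of_module_finite (𝒪 := 𝒪) (T := J)

end Local

section ArtinRees

open scoped Pointwise

variable {𝒪 : Type*} [CommRing 𝒪] [IsNoetherianRing 𝒪] {M : Type*} [AddCommGroup M] [Module 𝒪 M]
  [Module.Finite 𝒪 M]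

/-- **Artin–Rees** for a principal ideal, elementwise -/
theorem exists_pow_smul_of_mem (ϖ : 𝒪) (N : Submodule 𝒪 M) :
    ∃ c : ℕ, ∀ (m : ℕ) (y : M), ϖ ^ (m + c) • y ∈ N → ∃ z ∈ N, ϖ ^ (m + c) • y = ϖ ^ m • z := by
  obtain ⟨k, hk⟩ := Ideal.exists_pow_inf_eq_pow_smul (Ideal.span {ϖ}) N
  refine ⟨k, fun m y hy => ?_⟩
  have h1 : ϖ ^ (m + k) • y ∈ (Ideal.span {ϖ}) ^ (m + k) • (⊤ : Submodule 𝒪 M) ⊓ N :=
    ⟨Submodule.smul_mem_smul (Ideal.pow_mem_pow (Ideal.mem_span_singleton_self ϖ) _)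
      Submodule.mem_top, hy⟩
  rw [hk (m + k) (Nat.le_add_left k m), Nat.add_sub_cancel] at h1
  have h2 : (Ideal.span {ϖ}) ^ m • ((Ideal.span {ϖ}) ^ k • (⊤ : Submodule 𝒪 M) ⊓ N) ≤
      (Ideal.span {ϖ}) ^ m • N := Submodule.smul_mono le_rfl inf_le_right
  have h3 := h2 h1
  rw [Ideal.span_singleton_pow, Submodule.ideal_span_singleton_smul,
    Submodule.mem_smul_pointwise_iff_exists] at h3
  obtain ⟨z, hz, hzx⟩ := h3
  exact ⟨z, hz, hzx.symm⟩

end ArtinRees

section Top

variable {𝒪 : Type*} [CommRing 𝒪] [IsLocalRing 𝒪] [IsNoetherianRing 𝒪]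
  {A B : Type*} [CommRing A] [CommRing B] [IsLocalRing A] [IsLocalRing B]
  [Algebra 𝒪 A] [Algebra 𝒪 B] [IsLocalHom (algebraMap 𝒪 A)] [IsLocalHom (algebraMap 𝒪 B)]
  [Module.Finite 𝒪 A] [Module.Finite 𝒪 B] (J : Subalgebra 𝒪 (A × B))

/-- **Artin–Rees for `J ⊆ A × B`**: an element of `J` whose two components are divisible by `ϖ ^ (m + c)` is
divisible by `ϖ ^ m` in `J`. -/
theorem exists_dvd_of_dvd (ϖ : 𝒪) :
    ∃ c : ℕ, ∀ (m : ℕ) (x : J), (∃ a : A, (x : A × B).1 = algebraMap 𝒪 A (ϖ ^ (m + c)) * a) →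
      (∃ b : B, (x : A × B).2 = algebraMap 𝒪 B (ϖ ^ (m + c)) * b) →
      ∃ z : J, x = algebraMap 𝒪 J (ϖ ^ m) * z := by
  obtain ⟨c, hc⟩ := exists_pow_smul_of_mem (M := A × B) ϖ (Subalgebra.toSubmodule J)
  refine ⟨c, fun m x ⟨a, ha⟩ ⟨b, hb⟩ => ?_⟩
  have h1 : ϖ ^ (m + c) • ((a, b) : A × B) = (x : A × B) := by
    ext
    · rw [Prod.smul_fst, Algebra.smul_def, ha]
    · rw [Prod.smul_snd, Algebra.smul_def, hb]
  have h2 : ϖ ^ (m + c) • ((a, b) : A × B) ∈ Subalgebra.toSubmodule J := by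
    rw [h1]; exact x.2
  obtain ⟨z, hz, hzx⟩ := hc m (a, b) h2
  refine ⟨⟨z, hz⟩, Subtype.ext ?_⟩
  rw [← h1, hzx, Algebra.smul_def]
  rfl

omit [IsNoetherianRing 𝒪] in
theorem exists_dvd_of_mem_pow {R : Type*} [CommRing R] [IsLocalRing R] [Algebra 𝒪 R] (ϖ : 𝒪)
    (hϖ : maximalIdeal 𝒪 = Ideal.span {ϖ}) (N : ℕ)
    (hN : maximalIdeal R ^ N ≤ (maximalIdeal 𝒪).map (algebraMap 𝒪 R)) (k : ℕ) (y : R)
    (hy : y ∈ maximalIdeal R ^ ((N + k) * k)) : ∃ a : R, y = algebraMap 𝒪 R (ϖ ^ k) * a := by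
  have h1 : maximalIdeal R ^ ((N + k) * k) ≤ Ideal.span {algebraMap 𝒪 R (ϖ ^ k)} := by
    rw [pow_mul, map_pow, ← Ideal.span_singleton_pow]
    refine Ideal.pow_right_mono ?_ k
    refine (Ideal.pow_le_pow_right (Nat.le_add_right N k)).trans (hN.trans ?_)
    rw [hϖ, Ideal.map_span, Set.image_singleton]
  obtain ⟨a, ha⟩ := Ideal.mem_span_singleton'.mp (h1 hy)
  exact ⟨a, by rw [← ha, mul_comm]⟩

variable (hJ : J ≤ fib 𝒪 A B) [IsLocalRing J]

include hJ in
/-- **the topology of `J` is induced from `A × B`** -/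
theorem exists_mem_pow_of_mem (ϖ : 𝒪) (hϖ : maximalIdeal 𝒪 = Ideal.span {ϖ}) (n : ℕ) :
    ∃ m : ℕ, ∀ x : J, (x : A × B).1 ∈ maximalIdeal A ^ m → (x : A × B).2 ∈ maximalIdeal B ^ m →
      x ∈ maximalIdeal J ^ n := by
  obtain ⟨c, hc⟩ := exists_dvd_of_dvd J ϖ
  obtain ⟨NA, hNA⟩ :=
    P2MW.S_IsLocalRing_isAdicComplete_of_module_finite.M4cP1X1.exists_maximalIdeal_pow_le_map
      (𝒪 := 𝒪) (T := A)
  obtain ⟨NB, hNB⟩ :=
    P2MW.S_IsLocalRing_isAdicComplete_of_module_finite.M4cP1X1.exists_maximalIdeal_pow_le_map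
      (𝒪 := 𝒪) (T := B)
  set N := NA + NB with hNdef
  have hNA' : maximalIdeal A ^ N ≤ (maximalIdeal 𝒪).map (algebraMap 𝒪 A) :=
    (Ideal.pow_le_pow_right (Nat.le_add_right NA NB)).trans hNA
  have hNB' : maximalIdeal B ^ N ≤ (maximalIdeal 𝒪).map (algebraMap 𝒪 B) :=
    (Ideal.pow_le_pow_right (Nat.le_add_left NB NA)).trans hNB
  refine ⟨(N + (n + c)) * (n + c), fun x hxA hxB => ?_⟩
  obtain ⟨z, hz⟩ := hc n x (exists_dvd_of_mem_pow ϖ hϖ N hNA' (n + c) _ hxA)
    (exists_dvd_of_mem_pow ϖ hϖ N hNB' (n + c) _ hxB)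
  rw [hz, map_pow]
  refine Ideal.mul_mem_right _ _ (Ideal.pow_mem_pow ?_ n)
  haveI := isLocalHom_algebraMap_of_le_fib J hJ
  refine algebraMap_mem_maximalIdeal ?_
  rw [hϖ]
  exact Ideal.mem_span_singleton_self ϖ

end Top

section Epi

open TensorProduct

/-- a finite epimorphism of commutative algebras is surjective (`Algebra.isEpi_iff_surjective_algebraMap_of_finite`),
in the form used for the trace rings -/
theorem surjective_of_epi {R : Type*} [CommRing R] {J A : Type} [CommRing J] [CommRing A]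
    [Algebra R J] [Algebra R A] [Module.Finite R A] (f : J →ₐ[R] A)
    (h : ∀ (A' : Type) [CommRing A'] [Algebra R A'] (φ φ' : A →ₐ[R] A'),
      (∀ x, φ (f x) = φ' (f x)) → φ = φ') : Function.Surjective f := by
  letI : Algebra J A := f.toRingHom.toAlgebra
  haveI : IsScalarTower R J A := IsScalarTower.of_algebraMap_eq fun r => (f.commutes r).symm
  haveI : Module.Finite J A := Module.Finite.of_restrictScalars_finite R J A
  have hepi : Algebra.IsEpi J A := by
    rw [Algebra.isEpi_iff_forall_one_tmul_eq]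
    intro a
    have := h (A ⊗[J] A) (Algebra.TensorProduct.includeRight.restrictScalars R)
      (Algebra.TensorProduct.includeLeft) (fun x => by
        show (Algebra.TensorProduct.includeRight : A →ₐ[J] A ⊗[J] A) (algebraMap J A x) =
          (Algebra.TensorProduct.includeLeft : A →ₐ[J] A ⊗[J] A) (algebraMap J A x)
        rw [AlgHom.commutes, AlgHom.commutes])
    exact congrArg (fun φ => φ a) this
  exact Algebra.isEpi_iff_surjective_algebraMap_of_finite.mp hepi

end Epi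

end Fermat.Agent.S59lib.Join
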