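/-
S59lib / Join / Descent (helper4) — PROJECT I, JOIN-core, part (b), algebra: a representation
`r : G → GL₂(C)` with a diagonal element `r s₀ = diag(a₀, d₀)`, `a₀ − d₀` a unit, is determined entrywise by
its trace function: `a(g) = (tr r(s₀ g) − d₀ tr r(g)) / (a₀ − d₀)`, `b(t) c(h) = a(t h) − a(t) a(h)`.
Hence `r` has its entries in every subalgebra `J` containing the traces, `a₀`, `d₀`, `(a₀ − d₀)⁻¹`, as soon
as `b(t₀) = 1` and `c(h₀)⁻¹ ∈ J` (`entries_mem`).
-/
import Mathlib
import Fermat.Agent.S59lib.Join.Alg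
import Fermat.Agent.S59lib.Min.TameDiag

set_option autoImplicit false
set_option linter.unusedSectionVars false
set_option linter.style.haveILetI false

namespace Fermat.Agent.S59lib.Join

open Matrix

section Two

variable {C : Type*} [CommRing C]

theorem two_mul_det_fin_two (M : Matrix (Fin 2) (Fin 2) C) :
    2 * M.det = M.trace ^ 2 - (M * M).trace := by
  rw [det_fin_two, trace_fin_two, trace_fin_two]
  simp only [mul_apply, Fin.sum_univ_two]
  ring

variable {G : Type*} [Monoid G] (r : G →* Matrix (Fin 2) (Fin 2) C) (s₀ : G) (a₀ d₀ e : C)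
  (hs : r s₀ = Matrix.diagonal ![a₀, d₀]) (he : e * (a₀ - d₀) = 1)

include hs in
theorem trace_mul_diag (g : G) : (r (s₀ * g)).trace = a₀ * r g 0 0 + d₀ * r g 1 1 := by
  rw [map_mul, hs, trace_fin_two]
  simp [mul_apply, Matrix.diagonal_apply]

include hs he in
theorem entry_zero_zero (g : G) : r g 0 0 = e * ((r (s₀ * g)).trace - d₀ * (r g).trace) := by
  rw [trace_mul_diag r s₀ a₀ d₀ hs, trace_fin_two]
  linear_combination (-(r g 0 0)) * he

theorem entry_one_one (g : G) : r g 1 1 = (r g).trace - r g 0 0 := by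
  rw [trace_fin_two]; ring

theorem entry_mul (t h : G) : r t 0 1 * r h 1 0 = r (t * h) 0 0 - r t 0 0 * r h 0 0 := by
  rw [map_mul, mul_apply, Fin.sum_univ_two]; ring

theorem entry_mul' (t h : G) : r t 1 0 * r h 0 1 = r (t * h) 1 1 - r t 1 1 * r h 1 1 := by
  rw [map_mul, mul_apply, Fin.sum_univ_two]; ring

variable {R : Type*} [CommRing R] [Algebra R C] (J : Subalgebra R C)

include hs he in
theorem entry_zero_zero_mem (hd₀ : d₀ ∈ J) (heJ : e ∈ J) (htr : ∀ g, (r g).trace ∈ J) (g : G) :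
    r g 0 0 ∈ J := by
  rw [entry_zero_zero r s₀ a₀ d₀ e hs he g]
  exact J.mul_mem heJ (J.sub_mem (htr _) (J.mul_mem hd₀ (htr _)))

include hs he in
/-- **descent of the entries to a subalgebra containing the traces** -/
theorem entries_mem (hd₀ : d₀ ∈ J) (heJ : e ∈ J) (htr : ∀ g, (r g).trace ∈ J)
    (t₀ h₀ : G) (ht₀ : r t₀ 0 1 = 1) (e' : C) (he'J : e' ∈ J) (hh₀ : e' * r h₀ 1 0 = 1) :
    ∀ (g : G) (i j : Fin 2), r g i j ∈ J := by
  have h00 : ∀ g, r g 0 0 ∈ J := by
    intro g
    rw [entry_zero_zero r s₀ a₀ d₀ e hs he g]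
    exact J.mul_mem heJ (J.sub_mem (htr _) (J.mul_mem hd₀ (htr _)))
  have h11 : ∀ g, r g 1 1 ∈ J := by
    intro g
    rw [entry_one_one r g]
    exact J.sub_mem (htr _) (h00 g)
  have h10 : ∀ g, r g 1 0 ∈ J := by
    intro g
    have := entry_mul r t₀ g
    rw [ht₀, one_mul] at this
    rw [this]
    exact J.sub_mem (h00 _) (J.mul_mem (h00 _) (h00 _))
  have h01 : ∀ g, r g 0 1 ∈ J := by
    intro g
    have h1 := entry_mul r g h₀
    have h2 : r g 0 1 = e' * (r (g * h₀) 0 0 - r g 0 0 * r h₀ 0 0) := by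
      rw [← h1]
      linear_combination (-(r g 0 1)) * hh₀
    rw [h2]
    exact J.mul_mem he'J (J.sub_mem (h00 _) (J.mul_mem (h00 _) (h00 _)))
  intro g i j
  fin_cases i <;> fin_cases j
  · exact h00 g
  · exact h01 g
  · exact h10 g
  · exact h11 g

end Two

section Descend

variable {J C : Type*} [CommRing J] [CommRing C] {G : Type*} [Monoid G]

/-- a matrix-valued homomorphism with entries in the image of an injective ring homomorphism descends -/
theorem exists_descend (ι : J →+* C) (hι : Function.Injective ι) (r : G →* Matrix (Fin 2) (Fin 2) C)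
    (h : ∀ g i j, ∃ x : J, ι x = r g i j) :
    ∃ rJ : G →* Matrix (Fin 2) (Fin 2) J, ∀ g, (rJ g).map ι = r g := by
  choose f hf using h
  have hmap : ∀ g, (Matrix.of fun i j => f g i j : Matrix (Fin 2) (Fin 2) J).map ι = r g := by
    intro g; ext i j; simp [hf]
  have hinj : Function.Injective (fun M : Matrix (Fin 2) (Fin 2) J => M.map ι) :=
    fun M N hMN => by
      ext i j
      exact hι (by simpa using congrFun (congrFun hMN i) j)
  refine ⟨{ toFun := fun g => Matrix.of fun i j => f g i j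
            map_one' := ?_
            map_mul' := ?_ }, hmap⟩
  · apply hinj
    show (Matrix.of fun i j => f 1 i j : Matrix (Fin 2) (Fin 2) J).map ι = (1 : Matrix _ _ J).map ι
    rw [hmap, map_one, Matrix.map_one _ (map_zero ι) (map_one ι)]
  · intro g h
    apply hinj
    show (Matrix.of fun i j => f (g * h) i j : Matrix (Fin 2) (Fin 2) J).map ι =
      ((Matrix.of fun i j => f g i j : Matrix (Fin 2) (Fin 2) J) *
        (Matrix.of fun i j => f h i j : Matrix (Fin 2) (Fin 2) J)).map ι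
    rw [Matrix.map_mul, hmap, hmap, hmap, map_mul]

end Descend

section Pair

variable {A B : Type*} [CommRing A] [CommRing B]

/-- the matrix over `A × B` with components `X` and `Y` -/
def pairMat (X : Matrix (Fin 2) (Fin 2) A) (Y : Matrix (Fin 2) (Fin 2) B) :
    Matrix (Fin 2) (Fin 2) (A × B) :=
  Matrix.of fun i j => (X i j, Y i j)

@[simp] theorem pairMat_apply (X : Matrix (Fin 2) (Fin 2) A) (Y : Matrix (Fin 2) (Fin 2) B)
    (i j : Fin 2) : pairMat X Y i j = (X i j, Y i j) := rfl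

theorem pairMat_map_fst (X : Matrix (Fin 2) (Fin 2) A) (Y : Matrix (Fin 2) (Fin 2) B) :
    (pairMat X Y).map (RingHom.fst A B) = X := by
  ext i j; simp

theorem pairMat_map_snd (X : Matrix (Fin 2) (Fin 2) A) (Y : Matrix (Fin 2) (Fin 2) B) :
    (pairMat X Y).map (RingHom.snd A B) = Y := by
  ext i j; simp

theorem prodMat_ext {M N : Matrix (Fin 2) (Fin 2) (A × B)}
    (h1 : M.map (RingHom.fst A B) = N.map (RingHom.fst A B))
    (h2 : M.map (RingHom.snd A B) = N.map (RingHom.snd A B)) : M = N := by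
  ext i j
  · simpa using congrFun (congrFun h1 i) j
  · simpa using congrFun (congrFun h2 i) j

theorem pairMat_mul (X X' : Matrix (Fin 2) (Fin 2) A) (Y Y' : Matrix (Fin 2) (Fin 2) B) :
    pairMat (X * X') (Y * Y') = pairMat X Y * pairMat X' Y' := by
  apply prodMat_ext
  · rw [Matrix.map_mul, pairMat_map_fst, pairMat_map_fst, pairMat_map_fst]
  · rw [Matrix.map_mul, pairMat_map_snd, pairMat_map_snd, pairMat_map_snd]

theorem pairMat_one : pairMat (1 : Matrix (Fin 2) (Fin 2) A) (1 : Matrix (Fin 2) (Fin 2) B) = 1 := by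
  apply prodMat_ext
  · rw [pairMat_map_fst, Matrix.map_one _ (map_zero _) (map_one _)]
  · rw [pairMat_map_snd, Matrix.map_one _ (map_zero _) (map_one _)]

theorem pairMat_diagonal (a d : A × B) :
    pairMat (Matrix.diagonal ![a.1, d.1]) (Matrix.diagonal ![a.2, d.2]) = Matrix.diagonal ![a, d] := by
  ext i j <;> fin_cases i <;> fin_cases j <;> simp

theorem pairMat_trace (X : Matrix (Fin 2) (Fin 2) A) (Y : Matrix (Fin 2) (Fin 2) B) :
    (pairMat X Y).trace = (X.trace, Y.trace) := by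
  rw [trace_fin_two, trace_fin_two, trace_fin_two]; rfl

theorem pairMat_det (X : Matrix (Fin 2) (Fin 2) A) (Y : Matrix (Fin 2) (Fin 2) B) :
    (pairMat X Y).det = (X.det, Y.det) := by
  rw [det_fin_two, det_fin_two, det_fin_two]; rfl

variable {G : Type*} [Monoid G]

/-- the pair of two matrix-valued homomorphisms -/
def pairHom (rA : G →* Matrix (Fin 2) (Fin 2) A) (rB : G →* Matrix (Fin 2) (Fin 2) B) :
    G →* Matrix (Fin 2) (Fin 2) (A × B) where
  toFun g := pairMat (rA g) (rB g)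
  map_one' := by rw [map_one, map_one, pairMat_one]
  map_mul' g h := by rw [map_mul, map_mul, pairMat_mul]

@[simp] theorem pairHom_apply (rA : G →* Matrix (Fin 2) (Fin 2) A)
    (rB : G →* Matrix (Fin 2) (Fin 2) B) (g : G) : pairHom rA rB g = pairMat (rA g) (rB g) := rfl

end Pair

section Conj

variable {C : Type*} [CommRing C] {G : Type*} [Monoid G]

/-- the conjugate homomorphism `g ↦ U' r(g) U` -/
def conjHom (U U' : Matrix (Fin 2) (Fin 2) C) (h : U * U' = 1) (h' : U' * U = 1)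
    (r : G →* Matrix (Fin 2) (Fin 2) C) : G →* Matrix (Fin 2) (Fin 2) C where
  toFun g := U' * r g * U
  map_one' := by rw [map_one, Matrix.mul_one, h']
  map_mul' g k := by
    rw [map_mul]
    calc U' * (r g * r k) * U = U' * r g * 1 * (r k * U) := by
          rw [Matrix.mul_one]; simp only [Matrix.mul_assoc]
      _ = U' * r g * U * (U' * r k * U) := by rw [← h]; simp only [Matrix.mul_assoc]

@[simp] theorem conjHom_apply (U U' : Matrix (Fin 2) (Fin 2) C) (h : U * U' = 1) (h' : U' * U = 1)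
    (r : G →* Matrix (Fin 2) (Fin 2) C) (g : G) : conjHom U U' h h' r g = U' * r g * U := rfl

theorem trace_conj (U U' X : Matrix (Fin 2) (Fin 2) C) (h : U * U' = 1) :
    (U' * X * U).trace = X.trace := by
  rw [Matrix.trace_mul_cycle, h, Matrix.one_mul]

theorem span_range_conj {G' : Type*} (U U' : Matrix (Fin 2) (Fin 2) C) (h' : U' * U = 1)
    (r : G' → Matrix (Fin 2) (Fin 2) C) (hspan : Submodule.span C (Set.range r) = ⊤) :
    Submodule.span C (Set.range fun g => U' * r g * U) = ⊤ := by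
  rw [eq_top_iff]
  intro M _
  have key : ∀ X ∈ Submodule.span C (Set.range r),
      U' * X * U ∈ Submodule.span C (Set.range fun g => U' * r g * U) := by
    intro X hX
    induction hX using Submodule.span_induction with
    | mem X hX =>
      obtain ⟨g, rfl⟩ := hX
      exact Submodule.subset_span ⟨g, rfl⟩
    | zero => rw [Matrix.mul_zero, Matrix.zero_mul]; exact Submodule.zero_mem _
    | add X Y _ _ hX hY => rw [Matrix.mul_add, Matrix.add_mul]; exact Submodule.add_mem _ hX hY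
    | smul c X _ hX => rw [Matrix.mul_smul, Matrix.smul_mul]; exact Submodule.smul_mem _ _ hX
  have h1 := key (U * M * U') (by rw [hspan]; exact Submodule.mem_top)
  have h2 : U' * (U * M * U') * U = M := by
    calc U' * (U * M * U') * U = (U' * U) * M * (U' * U) := by simp only [Matrix.mul_assoc]
      _ = M := by rw [h', Matrix.one_mul, Matrix.mul_one]
  rwa [h2] at h1

theorem span_range_conjHom (U U' : Matrix (Fin 2) (Fin 2) C) (h : U * U' = 1) (h' : U' * U = 1)
    (r : G →* Matrix (Fin 2) (Fin 2) C) (hspan : Submodule.span C (Set.range r) = ⊤) :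
    Submodule.span C (Set.range (conjHom U U' h h' r)) = ⊤ :=
  span_range_conj U U' h' r hspan

variable [IsLocalRing C]

/-- a spanning family of matrices over a local ring has a unit at every position -/
theorem exists_isUnit_entry (r : G →* Matrix (Fin 2) (Fin 2) C)
    (hspan : Submodule.span C (Set.range r) = ⊤) (i j : Fin 2) : ∃ g, IsUnit (r g i j) := by
  by_contra hcon
  push Not at hcon
  let N : Submodule C (Matrix (Fin 2) (Fin 2) C) :=
    { carrier := {M | M i j ∈ IsLocalRing.maximalIdeal C}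
      add_mem' := fun {M M'} hM hM' => by
        show (M + M') i j ∈ IsLocalRing.maximalIdeal C
        rw [Matrix.add_apply]; exact Ideal.add_mem _ hM hM'
      zero_mem' := by
        show (0 : Matrix (Fin 2) (Fin 2) C) i j ∈ IsLocalRing.maximalIdeal C
        simp
      smul_mem' := fun c M hM => by
        show (c • M) i j ∈ IsLocalRing.maximalIdeal C
        rw [Matrix.smul_apply]; exact Ideal.mul_mem_left _ _ hM }
  have h1 : Submodule.span C (Set.range r) ≤ N := by
    rw [Submodule.span_le]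
    rintro _ ⟨g, rfl⟩
    exact (IsLocalRing.mem_maximalIdeal _).mpr (hcon g)
  rw [hspan] at h1
  have h2 : (Matrix.single i j (1 : C) : Matrix (Fin 2) (Fin 2) C) ∈ N := h1 Submodule.mem_top
  have h3 : (1 : C) ∈ IsLocalRing.maximalIdeal C := by
    have : (Matrix.single i j (1 : C) : Matrix (Fin 2) (Fin 2) C) i j = 1 := by simp
    rw [← this]; exact h2
  exact (Ideal.ne_top_iff_one _).mp (IsLocalRing.maximalIdeal.isMaximal C).ne_top h3

/-- the product of three matrices, the middle one with entries in an ideal, has entries in it -/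
theorem entries_mul_mul_mem {C : Type*} [CommRing C] (I : Ideal C) (X Y Z : Matrix (Fin 2) (Fin 2) C)
    (hY : ∀ i j, Y i j ∈ I) (i j : Fin 2) : (X * Y * Z) i j ∈ I := by
  rw [Matrix.mul_apply]
  refine Ideal.sum_mem _ fun k _ => ?_
  refine Ideal.mul_mem_right _ _ ?_
  rw [Matrix.mul_apply]
  refine Ideal.sum_mem _ fun l _ => ?_
  exact Ideal.mul_mem_left _ _ (hY l k)

theorem diag_conj_apply {C : Type*} [CommRing C] (v w : Fin 2 → C) (M : Matrix (Fin 2) (Fin 2) C)
    (i j : Fin 2) : (Matrix.diagonal v * M * Matrix.diagonal w) i j = v i * M i j * w j := by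
  rw [Matrix.mul_diagonal, Matrix.diagonal_mul]

end Conj

section Main

open IsLocalRing Fermat.Agent.S59lib.Min

variable {𝒪 : Type*} [CommRing 𝒪] [IsLocalRing 𝒪]
  {A B : Type*} [CommRing A] [CommRing B] [IsLocalRing A] [IsLocalRing B]
  [Algebra 𝒪 A] [Algebra 𝒪 B] [IsLocalHom (algebraMap 𝒪 A)] [IsLocalHom (algebraMap 𝒪 B)]
  [Module.Finite 𝒪 A] [Module.Finite 𝒪 B]
  (J : Subalgebra 𝒪 (A × B)) (hJ : J ≤ fib 𝒪 A B) [IsLocalRing J] [HenselianLocalRing J]
  {G : Type*} [Monoid G] (rA : G →* Matrix (Fin 2) (Fin 2) A) (rB : G →* Matrix (Fin 2) (Fin 2) B)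

include hJ in
/-- **Descent to the join**: two representations over `A` and `B` whose pairs of traces lie in the local
Henselian subalgebra `J ⊆ A ×_k B`, residually multiplicity free at some `s₀` and spanning, can be conjugated
simultaneously into `GL₂(J)`. -/
theorem exists_conj_entries_mem (htr : ∀ g, ((rA g).trace, (rB g).trace) ∈ J) (h2 : IsUnit (2 : 𝒪))
    (hspan : Submodule.span A (Set.range rA) = ⊤)
    (s₀ : G) (α β : 𝒪) (hαβ : IsUnit (α - β))
    (htA : (rA s₀).trace - algebraMap 𝒪 A (α + β) ∈ maximalIdeal A)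
    (hdA : (rA s₀).det - algebraMap 𝒪 A (α * β) ∈ maximalIdeal A) :
    ∃ W W' : Matrix (Fin 2) (Fin 2) (A × B), W * W' = 1 ∧ W' * W = 1 ∧
      ∀ g i j, (W' * pairMat (rA g) (rB g) * W) i j ∈ J := by
  classical
  set rC := pairHom rA rB with hrC
  have htrC : ∀ g, (rC g).trace ∈ J := fun g => by
    rw [hrC, pairHom_apply, pairMat_trace]; exact htr g
  have hdetC : ∀ g, (rC g).det ∈ J := by
    intro g
    obtain ⟨u, hu⟩ := h2.exists_left_inv
    have h := two_mul_det_fin_two (rC g)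
    have hu' : algebraMap 𝒪 (A × B) u * 2 = 1 := by
      rw [← map_ofNat (algebraMap 𝒪 (A × B)) 2, ← map_mul, hu, map_one]
    have : (rC g).det = algebraMap 𝒪 (A × B) u * ((rC g).trace ^ 2 - (rC (g * g)).trace) := by
      rw [map_mul, ← h, ← mul_assoc, hu', one_mul]
    rw [this]
    exact J.mul_mem (J.algebraMap_mem _) (J.sub_mem (J.pow_mem (htrC g) 2) (htrC _))
  -- Hensel in `J`
  let t : J := ⟨(rC s₀).trace, htrC s₀⟩
  let d : J := ⟨(rC s₀).det, hdetC s₀⟩
  have ht1 : ((t : J) : A × B).1 = (rA s₀).trace := by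
    show ((rC s₀).trace).1 = _
    rw [hrC, pairHom_apply, pairMat_trace]
  have ht2 : ((t : J) : A × B).2 = (rB s₀).trace := by
    show ((rC s₀).trace).2 = _
    rw [hrC, pairHom_apply, pairMat_trace]
  have hd1 : ((d : J) : A × B).1 = (rA s₀).det := by
    show ((rC s₀).det).1 = _
    rw [hrC, pairHom_apply, pairMat_det]
  have hd2 : ((d : J) : A × B).2 = (rB s₀).det := by
    show ((rC s₀).det).2 = _
    rw [hrC, pairHom_apply, pairMat_det]
  have ht : t - (algebraMap 𝒪 J α + algebraMap 𝒪 J β) ∈ maximalIdeal J := by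
    rw [mem_maximalIdeal_iff_fst J hJ]
    have : ((t - (algebraMap 𝒪 J α + algebraMap 𝒪 J β) : J) : A × B).1 =
        (rA s₀).trace - algebraMap 𝒪 A (α + β) := by
      rw [← map_add]
      show ((t : J) : A × B).1 - (algebraMap 𝒪 (A × B) (α + β)).1 = _
      rw [ht1, Prod.algebraMap_apply]
    rw [this]; exact htA
  have hd : d - algebraMap 𝒪 J α * algebraMap 𝒪 J β ∈ maximalIdeal J := by
    rw [mem_maximalIdeal_iff_fst J hJ]
    have : ((d - algebraMap 𝒪 J α * algebraMap 𝒪 J β : J) : A × B).1 =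
        (rA s₀).det - algebraMap 𝒪 A (α * β) := by
      rw [← map_mul]
      show ((d : J) : A × B).1 - (algebraMap 𝒪 (A × B) (α * β)).1 = _
      rw [hd1, Prod.algebraMap_apply]
    rw [this]; exact hdA
  have hab : IsUnit (algebraMap 𝒪 J α - algebraMap 𝒪 J β) := by
    rw [← map_sub]; exact hαβ.map _
  obtain ⟨a₀, d₀, hsum, hprod, hunit⟩ :=
    exists_roots_of_henselian t d (algebraMap 𝒪 J α) (algebraMap 𝒪 J β) ht hd hab
  -- diagonalisation over `A` and over `B`
  have hsum1 : (rA s₀).trace = ((a₀ : J) : A × B).1 + ((d₀ : J) : A × B).1 := by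
    rw [← ht1, ← hsum]; rfl
  have hsum2 : (rB s₀).trace = ((a₀ : J) : A × B).2 + ((d₀ : J) : A × B).2 := by
    rw [← ht2, ← hsum]; rfl
  have hprod1 : (rA s₀).det = ((a₀ : J) : A × B).1 * ((d₀ : J) : A × B).1 := by
    rw [← hd1, ← hprod]; rfl
  have hprod2 : (rB s₀).det = ((a₀ : J) : A × B).2 * ((d₀ : J) : A × B).2 := by
    rw [← hd2, ← hprod]; rfl
  have hunit1 : IsUnit (((a₀ : J) : A × B).1 - ((d₀ : J) : A × B).1) :=
    (isUnit_iff_fst J hJ _).mp hunit
  have hunit2 : IsUnit (((a₀ : J) : A × B).2 - ((d₀ : J) : A × B).2) :=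
    (isUnit_iff_snd J hJ _).mp hunit
  obtain ⟨U, U', hUU', hU'U, hUd⟩ := exists_conj_diagonal (rA s₀) _ _ hsum1 hprod1 hunit1
  obtain ⟨V, V', hVV', hV'V, hVd⟩ := exists_conj_diagonal (rB s₀) _ _ hsum2 hprod2 hunit2
  set W₁ := pairMat U V with hW₁
  set W₁' := pairMat U' V' with hW₁'
  have hWW' : W₁ * W₁' = 1 := by rw [hW₁, hW₁', ← pairMat_mul, hUU', hVV', pairMat_one]
  have hW'W : W₁' * W₁ = 1 := by rw [hW₁, hW₁', ← pairMat_mul, hU'U, hV'V, pairMat_one]
  set rC₁ := conjHom W₁ W₁' hWW' hW'W rC with hrC₁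
  set rA₁ := conjHom U U' hUU' hU'U rA with hrA₁
  set rB₁ := conjHom V V' hVV' hV'V rB with hrB₁
  have hpair₁ : ∀ g, rC₁ g = pairMat (rA₁ g) (rB₁ g) := by
    intro g
    rw [hrC₁, hrA₁, hrB₁, conjHom_apply, conjHom_apply, conjHom_apply, hrC, pairHom_apply, hW₁, hW₁',
      pairMat_mul, pairMat_mul]
  have hs₁ : rC₁ s₀ = Matrix.diagonal ![((a₀ : J) : A × B), ((d₀ : J) : A × B)] := by
    rw [hrC₁, conjHom_apply, hrC, pairHom_apply, Matrix.mul_assoc, hW₁, ← pairMat_mul, hUd, hVd,
      pairMat_mul, pairMat_diagonal, ← hW₁, ← Matrix.mul_assoc, hW'W, Matrix.one_mul]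
  obtain ⟨e, he⟩ := hunit.exists_left_inv
  have he' : ((e : J) : A × B) * (((a₀ : J) : A × B) - ((d₀ : J) : A × B)) = 1 :=
    congrArg (fun z : J => (z : A × B)) he
  have htr₁ : ∀ g, (rC₁ g).trace ∈ J := fun g => by
    rw [hrC₁, conjHom_apply, trace_conj _ _ _ hWW']; exact htrC g
  -- the units `b(t₀)`, `c(h₀)`
  have hspan₁ : Submodule.span A (Set.range rA₁) = ⊤ := span_range_conjHom U U' hUU' hU'U rA hspan
  obtain ⟨t₀, ht₀⟩ := exists_isUnit_entry rA₁ hspan₁ 0 1
  obtain ⟨h₀, hh₀⟩ := exists_isUnit_entry rA₁ hspan₁ 1 0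
  have h00 : ∀ g, rC₁ g 0 0 ∈ J :=
    entry_zero_zero_mem rC₁ s₀ _ _ _ hs₁ he' J d₀.2 e.2 htr₁
  have hxJ : rC₁ t₀ 0 1 * rC₁ h₀ 1 0 ∈ J := by
    rw [entry_mul]
    exact J.sub_mem (h00 _) (J.mul_mem (h00 _) (h00 _))
  have hxu : IsUnit (⟨_, hxJ⟩ : J) := by
    rw [isUnit_iff_fst J hJ]
    show IsUnit ((rC₁ t₀ 0 1 * rC₁ h₀ 1 0 : A × B)).1
    rw [hpair₁, hpair₁, pairMat_apply, pairMat_apply]
    exact ht₀.mul hh₀
  obtain ⟨e', he'x⟩ := hxu.exists_left_inv
  have he'x' : ((e' : J) : A × B) * (rC₁ t₀ 0 1 * rC₁ h₀ 1 0) = 1 :=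
    congrArg (fun z : J => (z : A × B)) he'x
  have hxC : IsUnit (rC₁ t₀ 0 1 * rC₁ h₀ 1 0) := hxu.map J.val
  have huC : IsUnit (rC₁ t₀ 0 1) := isUnit_of_mul_isUnit_left hxC
  obtain ⟨u', hu'⟩ := huC.exists_right_inv
  set u := rC₁ t₀ 0 1 with hu
  -- the second conjugation
  set D : Matrix (Fin 2) (Fin 2) (A × B) := Matrix.diagonal ![1, u'] with hD
  set D' : Matrix (Fin 2) (Fin 2) (A × B) := Matrix.diagonal ![1, u] with hD'
  have hDD' : D * D' = 1 := by
    rw [hD, hD', Matrix.diagonal_mul_diagonal, ← Matrix.diagonal_one]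
    congr 1
    funext i
    fin_cases i
    · simp
    · simpa [mul_comm] using hu'
  have hD'D : D' * D = 1 := by
    rw [hD, hD', Matrix.diagonal_mul_diagonal, ← Matrix.diagonal_one]
    congr 1
    funext i
    fin_cases i
    · simp
    · simp [hu']
  set rC₂ := conjHom D D' hDD' hD'D rC₁ with hrC₂
  have hent : ∀ g i j, rC₂ g i j = ![1, u] i * rC₁ g i j * ![1, u'] j := fun g i j => by
    rw [hrC₂, conjHom_apply, hD, hD', diag_conj_apply]
  have hs₂ : rC₂ s₀ = Matrix.diagonal ![((a₀ : J) : A × B), ((d₀ : J) : A × B)] := by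
    refine Matrix.ext fun i j => ?_
    rw [hent, hs₁]
    fin_cases i <;> fin_cases j
    · simp
    · simp
    · simp
    · show u * (Matrix.diagonal ![((a₀ : J) : A × B), ((d₀ : J) : A × B)] 1 1) * u' = _
      rw [mul_right_comm, hu', one_mul]
      rfl
  have htr₂ : ∀ g, (rC₂ g).trace ∈ J := fun g => by
    rw [hrC₂, conjHom_apply, trace_conj _ _ _ hDD']; exact htr₁ g
  have ht₂ : rC₂ t₀ 0 1 = 1 := by
    rw [hent]
    show (1 : A × B) * u * u' = 1
    rw [one_mul, hu']
  have hh₂ : ((e' : J) : A × B) * rC₂ h₀ 1 0 = 1 := by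
    rw [hent]
    show ((e' : J) : A × B) * (u * rC₁ h₀ 1 0 * 1) = 1
    rw [mul_one]
    exact he'x'
  have hall := entries_mem rC₂ s₀ _ _ _ hs₂ he' J d₀.2 e.2 htr₂ t₀ h₀ ht₂ _ e'.2 hh₂
  refine ⟨W₁ * D, D' * W₁', ?_, ?_, fun g i j => ?_⟩
  · calc W₁ * D * (D' * W₁') = W₁ * (D * D') * W₁' := by simp only [Matrix.mul_assoc]
      _ = 1 := by rw [hDD', Matrix.mul_one, hWW']
  · calc D' * W₁' * (W₁ * D) = D' * (W₁' * W₁) * D := by simp only [Matrix.mul_assoc]
      _ = 1 := by rw [hW'W, Matrix.mul_one, hD'D]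
  · have : D' * W₁' * pairMat (rA g) (rB g) * (W₁ * D) = rC₂ g := by
      rw [hrC₂, conjHom_apply, hrC₁, conjHom_apply, hrC, pairHom_apply]
      simp only [Matrix.mul_assoc]
    rw [this]
    exact hall g i j

end Main

end Fermat.Agent.S59lib.Join
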