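/-
S59lib / Join / Core (helper4) — PROJECT I, JOIN-core: the trace ring of a pair.

For two representations `ρA : G_ℚ → GL₂(A)`, `ρB : G_ℚ → GL₂(B)` over finite local `𝒪`-algebras lifting the same
absolutely irreducible `ρbar` (residually multiplicity free at some `s₀`, `2 ∈ 𝒪ˣ`), the `𝒪`-subalgebra
`J = joinAlg ρA ρB ⊆ A × B` generated by the pairs of traces is a complete noetherian local `𝒪`-algebra, finite over
`𝒪`, with residue field `k`, and carries a representation `ρJ` whose push-forwards to `A` and `B` are `ρA` and `ρB`.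
-/
import Mathlib
import Fermat.Agent.S59lib.Join.Descent
import Fermat.Agent.TeamA.MatRep
import Fermat.Agent.S43lib.B3.EndGal
import Fermat.Agent.S43lib.Loc.BrauerNesbitt2

set_option autoImplicit false
set_option linter.unusedSectionVars false
set_option linter.style.haveILetI false

noncomputable section

namespace Fermat.Agent.S59lib.Join

open IsLocalRing Polynomial Fermat.Agent.TeamA.Rep

local notation "Γℚ" => (AlgebraicClosure ℚ ≃ₐ[ℚ] AlgebraicClosure ℚ)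

section Residual

variable {𝒪 : Type} [CommRing 𝒪] [IsLocalRing 𝒪]
  {ρbar : ResidualGaloisRep (ResidueField 𝒪)}
  {R : Type} [CommRing R] [IsLocalRing R] [Algebra 𝒪 R] [IsLocalHom (algebraMap 𝒪 R)]

theorem trace_det_of_charpoly_eq {k : Type*} [Field k] (M : Matrix (Fin 2) (Fin 2) k) (α β : k)
    (h : M.charpoly = (X - C α) * (X - C β)) : M.trace = α + β ∧ M.det = α * β := by
  rw [Matrix.charpoly_fin_two] at h
  have h1 := congrArg (fun q : k[X] => q.coeff 1) h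
  have h0 := congrArg (fun q : k[X] => q.coeff 0) h
  have e : (X - C α) * (X - C β) = X ^ 2 - C (α + β) * X + C (α * β) := by
    rw [map_add, map_mul]; ring
  rw [e] at h1 h0
  simp only [coeff_add, coeff_sub, coeff_X_pow, coeff_C_mul, coeff_X_one,
    coeff_X_zero, mul_one, mul_zero, coeff_C] at h1 h0
  norm_num at h1 h0
  exact ⟨by linear_combination -h1, h0⟩

/-- **an involution of determinant `-1`** (complex conjugation) has the two distinct eigenvalues `1`, `-1`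
when `2 ≠ 0`: this discharges the hypothesis `hs₀` of the join -/
theorem exists_distinct_of_involution {k : Type} [Field k] (ρ : ResidualGaloisRep k) (h2 : (2 : k) ≠ 0)
    (c : Γℚ) (hc : c * c = 1) (hdet : LinearMap.det (ρ.ρ c) = -1) :
    ∃ (s₀ : Γℚ) (α β : k), α ≠ β ∧ LinearMap.charpoly (ρ.ρ s₀) = (X - C α) * (X - C β) := by
  refine ⟨c, 1, -1, fun h => h2 ?_, ?_⟩
  · have : (2 : k) = 1 - (-1) := by ring
    rw [this, ← h, sub_self]
  · let b : Module.Basis (Fin 2) k ρ.V := Module.finBasisOfFinrankEq k ρ.V ρ.finrank_eq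
    set M := matOfRes ρ b c with hM
    have hMM : M * M = 1 := by rw [hM, ← matOfRes_mul, hc, matOfRes_one]
    have hd : M.det = -1 := by rw [hM, ← hdet]; exact LinearMap.det_toMatrix b (ρ.ρ c)
    have hcp : LinearMap.charpoly (ρ.ρ c) = M.charpoly := (LinearMap.charpoly_toMatrix (ρ.ρ c) b).symm
    have hCH : M * M = M.trace • M - M.det • (1 : Matrix (Fin 2) (Fin 2) k) := by
      rw [Matrix.trace_fin_two, Matrix.det_fin_two]
      ext i j
      fin_cases i <;> fin_cases j <;>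
        simp [Matrix.mul_apply, Fin.sum_univ_two] <;> ring
    have ht : M.trace = 0 := by
      by_contra hne
      have h1 : M.trace • M = 0 := by
        have := hCH
        rw [hMM, hd, neg_smul, one_smul, sub_neg_eq_add] at this
        exact (add_eq_right.mp this.symm)
      have h4 : M = 0 := by
        have := congrArg (fun Z => (M.trace)⁻¹ • Z) h1
        simpa [smul_smul, inv_mul_cancel₀ hne] using this
      rw [h4, Matrix.zero_mul] at hMM
      exact zero_ne_one hMM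
    rw [hcp, Matrix.charpoly_fin_two, ht, hd]
    simp only [map_zero, zero_mul, sub_zero, map_neg, map_one]
    ring

/-- the residual traces and determinants of a lift of `ρbar` -/
theorem residue_trace_det (ρ : GaloisRepAdic R)
    (hres : ρ.residual.IsEquiv (ρbar.baseChangeAlong (ResidueField.map (algebraMap 𝒪 R))))
    (b : Module.Basis (Fin 2) R ρ.V) (bbar : Module.Basis (Fin 2) (ResidueField 𝒪) ρbar.V) (σ : Γℚ) :
    residue R (matOf ρ b σ).trace =
        ResidueField.map (algebraMap 𝒪 R) (matOfRes ρbar bbar σ).trace ∧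
      residue R (matOf ρ b σ).det =
        ResidueField.map (algebraMap 𝒪 R) (matOfRes ρbar bbar σ).det := by
  obtain ⟨M, M', h1, h2, h⟩ := res_exists_conj_of_isEquiv ρ.residual
    (ρbar.baseChangeAlong (ResidueField.map (algebraMap 𝒪 R))) (residualBasis ρ b)
    (resBcBasis (ResidueField.map (algebraMap 𝒪 R)) ρbar bbar) hres
  have h3 := h σ
  rw [matOfRes_residual, matOfRes_baseChangeAlong] at h3
  have h4 : (matOf ρ b σ).map (residue R) =
      M' * (matOfRes ρbar bbar σ).map (ResidueField.map (algebraMap 𝒪 R)) * M := by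
    rw [Matrix.mul_assoc, ← h3, ← Matrix.mul_assoc, h2, Matrix.one_mul]
  constructor
  · have : ((matOf ρ b σ).map (residue R)).trace =
        ((matOfRes ρbar bbar σ).map (ResidueField.map (algebraMap 𝒪 R))).trace := by
      rw [h4, trace_conj _ _ _ h1]
    rw [Matrix.trace_fin_two, Matrix.trace_fin_two] at this
    rw [Matrix.trace_fin_two, Matrix.trace_fin_two, map_add, map_add]
    exact this
  · have : ((matOf ρ b σ).map (residue R)).det =
        ((matOfRes ρbar bbar σ).map (ResidueField.map (algebraMap 𝒪 R))).det := by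
      rw [h4, Matrix.det_mul, Matrix.det_mul, mul_right_comm, ← Matrix.det_mul, h2, Matrix.det_one,
        one_mul]
    rw [Matrix.det_fin_two, Matrix.det_fin_two] at this
    rw [Matrix.det_fin_two, Matrix.det_fin_two, map_sub, map_sub, map_mul, map_mul, map_mul, map_mul]
    exact this

/-- congruence form -/
theorem sub_mem_of_residue_eq {x : R} {c : 𝒪} {y : ResidueField 𝒪}
    (h : residue R x = ResidueField.map (algebraMap 𝒪 R) y) (hc : residue 𝒪 c = y) :
    x - algebraMap 𝒪 R c ∈ maximalIdeal R := by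
  rw [← residue_eq_zero_iff, map_sub, h, ← hc, ResidueField.map_residue, sub_self]

/-- a lift of an absolutely irreducible `ρbar` is residually absolutely irreducible -/
theorem residual_absIrr_of_isEquiv (habs : ρbar.IsAbsolutelyIrreducible) (ρ : GaloisRepAdic R)
    (hres : ρ.residual.IsEquiv (ρbar.baseChangeAlong (ResidueField.map (algebraMap 𝒪 R)))) :
    ρ.residual.IsAbsolutelyIrreducible := by
  let b : Module.Basis (Fin 2) R ρ.V := Module.finBasisOfFinrankEq R ρ.V ρ.finrank_eq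
  let bbar : Module.Basis (Fin 2) (ResidueField 𝒪) ρbar.V :=
    Module.finBasisOfFinrankEq _ ρbar.V ρbar.finrank_eq
  obtain ⟨M, M', h1, h2, h⟩ := res_exists_conj_of_isEquiv ρ.residual
    (ρbar.baseChangeAlong (ResidueField.map (algebraMap 𝒪 R))) (residualBasis ρ b)
    (resBcBasis (ResidueField.map (algebraMap 𝒪 R)) ρbar bbar) hres
  refine Fermat.Agent.S43lib.B3.res_absIrr_of_span _ (residualBasis ρ b) ?_
  have h3 := Fermat.Agent.S43lib.B3.span_range_map_eq_top (ResidueField.map (algebraMap 𝒪 R)) _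
    (Fermat.Agent.S43lib.Loc.span_range_matOfRes_eq_top ρbar habs bbar)
  have h4 := span_range_conj M M' h2 _ h3
  have h5 : matOfRes ρ.residual (residualBasis ρ b) = fun g =>
      M' * (matOfRes ρbar bbar g).map (ResidueField.map (algebraMap 𝒪 R)) * M := by
    funext g
    have := h g
    rw [matOfRes_baseChangeAlong] at this
    rw [Matrix.mul_assoc, ← this, ← Matrix.mul_assoc, h2, Matrix.one_mul]
  rw [h5]
  exact h4

end Residual

section Cyclo

/-- the action of `σ` on the `p ^ m`-th roots of unity is a power map -/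
theorem exists_cyclo_exp (p : ℕ) (hp : p ≠ 0) (m : ℕ) (σ : Γℚ) :
    ∃ a : ℕ, ∀ μ : AlgebraicClosure ℚ, μ ^ p ^ m = 1 → σ μ = μ ^ a := by
  haveI : NeZero (p ^ m) := ⟨pow_ne_zero m hp⟩
  refine ⟨(modularCyclotomicCharacter.toFun (p ^ m)
    (σ : AlgebraicClosure ℚ ≃+* AlgebraicClosure ℚ)).val, fun μ hμ => ?_⟩
  have hu : IsUnit μ := IsUnit.of_pow_eq_one hμ (NeZero.ne _)
  obtain ⟨u, rfl⟩ := hu
  have hmem : u ∈ rootsOfUnity (p ^ m) (AlgebraicClosure ℚ) := by
    rw [mem_rootsOfUnity]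
    exact Units.ext (by simpa using hμ)
  have := modularCyclotomicCharacter.toFun_spec'
    (σ : AlgebraicClosure ℚ ≃+* AlgebraicClosure ℚ) hmem
  simpa using this

/-- two exponents for the action of `σ` on roots of unity of `p`-power order are congruent -/
theorem cyclo_exp_congr (p : ℕ) (hp : p ≠ 0) {n m : ℕ} (hnm : n ≤ m) (σ : Γℚ) (a a' : ℕ)
    (ha : ∀ μ : AlgebraicClosure ℚ, μ ^ p ^ n = 1 → σ μ = μ ^ a)
    (ha' : ∀ μ : AlgebraicClosure ℚ, μ ^ p ^ m = 1 → σ μ = μ ^ a') :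
    ((p ^ n : ℕ) : ℤ) ∣ (a : ℤ) - a' := by
  haveI : NeZero (p : ℚ) := ⟨Nat.cast_ne_zero.mpr hp⟩
  obtain ⟨ζ, hζ⟩ := HasEnoughRootsOfUnity.exists_primitiveRoot (AlgebraicClosure ℚ) (p ^ n)
  have h1 : ζ ^ p ^ n = 1 := hζ.pow_eq_one
  have h2 : ζ ^ p ^ m = 1 := by
    obtain ⟨k, rfl⟩ := Nat.exists_eq_add_of_le hnm
    rw [pow_add, pow_mul, h1, one_pow]
  have h3 : ζ ^ a = ζ ^ a' := by rw [← ha ζ h1, ← ha' ζ h2]
  have hζ0 : ζ ≠ 0 := hζ.ne_zero (pow_ne_zero n hp)
  rw [← hζ.zpow_eq_one_iff_dvd, zpow_sub₀ hζ0, zpow_natCast, zpow_natCast, h3,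
    div_self (pow_ne_zero _ hζ0)]

theorem natCast_sub_mem_span {R : Type*} [CommRing R] {N : ℕ} {a a' : ℕ}
    (h : ((N : ℕ) : ℤ) ∣ (a : ℤ) - a') : (a : R) - (a' : R) ∈ Ideal.span {((N : ℕ) : R)} := by
  obtain ⟨k, hk⟩ := h
  rw [Ideal.mem_span_singleton']
  refine ⟨(k : R), ?_⟩
  have := congrArg (fun z : ℤ => (z : R)) hk
  simp only [Int.cast_sub, Int.cast_natCast, Int.cast_mul] at this
  rw [this, mul_comm]

end Cyclo

section Join

variable (𝒪 : Type) [CommRing 𝒪] [IsDomain 𝒪] [IsDiscreteValuationRing 𝒪]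
  [IsAdicComplete (maximalIdeal 𝒪) 𝒪]
  {ρbar : ResidualGaloisRep (ResidueField 𝒪)}
  {A B : Type} [CommRing A] [CommRing B] [IsLocalRing A] [IsLocalRing B] [Algebra 𝒪 A] [Algebra 𝒪 B]
  [IsLocalHom (algebraMap 𝒪 A)] [IsLocalHom (algebraMap 𝒪 B)] [Module.Finite 𝒪 A] [Module.Finite 𝒪 B]
  (ρA : GaloisRepAdic A) (ρB : GaloisRepAdic B)

/-- **the join algebra**: the `𝒪`-subalgebra of `A × B` generated by the pairs of traces -/
def joinAlg : Subalgebra 𝒪 (A × B) :=
  Algebra.adjoin 𝒪 (Set.range fun σ : Γℚ => (ρA.trace σ, ρB.trace σ))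

theorem trace_pair_mem (σ : Γℚ) : (ρA.trace σ, ρB.trace σ) ∈ joinAlg 𝒪 ρA ρB :=
  Algebra.subset_adjoin ⟨σ, rfl⟩

variable {𝒪}

theorem trace_eq_matOf_trace {R : Type} [CommRing R] [IsLocalRing R] (ρ : GaloisRepAdic R)
    (b : Module.Basis (Fin 2) R ρ.V) (σ : Γℚ) : ρ.trace σ = (matOf ρ b σ).trace :=
  LinearMap.trace_eq_matrix_trace R b (ρ.ρ σ)

theorem det_eq_matOf_det {R : Type} [CommRing R] [IsLocalRing R] (ρ : GaloisRepAdic R)
    (b : Module.Basis (Fin 2) R ρ.V) (σ : Γℚ) : LinearMap.det (ρ.ρ σ) = (matOf ρ b σ).det :=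
  (LinearMap.det_toMatrix b (ρ.ρ σ)).symm

variable (hA : ρA.residual.IsEquiv (ρbar.baseChangeAlong (ResidueField.map (algebraMap 𝒪 A))))
  (hB : ρB.residual.IsEquiv (ρbar.baseChangeAlong (ResidueField.map (algebraMap 𝒪 B))))

include hA hB in
/-- the join algebra lies in the fibre product `A ×_k B` -/
theorem joinAlg_le_fib : joinAlg 𝒪 ρA ρB ≤ fib 𝒪 A B := by
  refine Algebra.adjoin_le ?_
  rintro _ ⟨σ, rfl⟩
  let bbar : Module.Basis (Fin 2) (ResidueField 𝒪) ρbar.V :=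
    Module.finBasisOfFinrankEq _ ρbar.V ρbar.finrank_eq
  let bA : Module.Basis (Fin 2) A ρA.V := Module.finBasisOfFinrankEq A ρA.V ρA.finrank_eq
  let bB : Module.Basis (Fin 2) B ρB.V := Module.finBasisOfFinrankEq B ρB.V ρB.finrank_eq
  obtain ⟨c, hc⟩ := residue_surjective (matOfRes ρbar bbar σ).trace
  refine ⟨c, ?_, ?_⟩
  · show ρA.trace σ - _ ∈ _
    rw [trace_eq_matOf_trace ρA bA]
    exact sub_mem_of_residue_eq (residue_trace_det ρA hA bA bbar σ).1 hc
  · show ρB.trace σ - _ ∈ _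
    rw [trace_eq_matOf_trace ρB bB]
    exact sub_mem_of_residue_eq (residue_trace_det ρB hB bB bbar σ).1 hc

variable (habs : ρbar.IsAbsolutelyIrreducible) (h2 : IsUnit (2 : 𝒪))
  (hs₀ : ∃ (s₀ : Γℚ) (α β : ResidueField 𝒪), α ≠ β ∧
    LinearMap.charpoly (ρbar.ρ s₀) = (X - C α) * (X - C β))

include hA hB habs h2 hs₀ in
/-- **Stage A**: simultaneous conjugation of `ρA`, `ρB` into `GL₂(J)` -/
theorem exists_descent (bA : Module.Basis (Fin 2) A ρA.V) (bB : Module.Basis (Fin 2) B ρB.V)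
    [IsLocalRing (joinAlg 𝒪 ρA ρB)]
    [IsAdicComplete (maximalIdeal (joinAlg 𝒪 ρA ρB)) (joinAlg 𝒪 ρA ρB)] :
    ∃ (W W' : Matrix (Fin 2) (Fin 2) (A × B))
      (rJ : Γℚ →* Matrix (Fin 2) (Fin 2) (joinAlg 𝒪 ρA ρB)),
      W * W' = 1 ∧ W' * W = 1 ∧
      ∀ g, (rJ g).map (joinAlg 𝒪 ρA ρB).val =
        W' * pairMat (matOf ρA bA g) (matOf ρB bB g) * W := by
  set J := joinAlg 𝒪 ρA ρB with hJdef
  have hJ : J ≤ fib 𝒪 A B := joinAlg_le_fib ρA ρB hA hB
  haveI : HenselianLocalRing J := Fermat.Agent.TeamA.Hensel2.henselianLocalRing_of_isAdicComplete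
  let bbar : Module.Basis (Fin 2) (ResidueField 𝒪) ρbar.V :=
    Module.finBasisOfFinrankEq _ ρbar.V ρbar.finrank_eq
  obtain ⟨s₀, α, β, hαβ, hcp⟩ := hs₀
  obtain ⟨α', rfl⟩ := residue_surjective α
  obtain ⟨β', rfl⟩ := residue_surjective β
  have hunit : IsUnit (α' - β') := by
    by_contra hn
    have : residue 𝒪 (α' - β') = 0 := (residue_eq_zero_iff _).mpr ((mem_maximalIdeal _).mpr hn)
    rw [map_sub, sub_eq_zero] at this
    exact hαβ this
  have hcp' : (matOfRes ρbar bbar s₀).charpoly = (X - C (residue 𝒪 α')) * (X - C (residue 𝒪 β')) := by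
    rw [← hcp]
    exact LinearMap.charpoly_toMatrix (ρbar.ρ s₀) bbar
  obtain ⟨htr0, hdet0⟩ := trace_det_of_charpoly_eq _ _ _ hcp'
  have htA : (matOfHom ρA bA s₀).trace - algebraMap 𝒪 A (α' + β') ∈ maximalIdeal A :=
    sub_mem_of_residue_eq (residue_trace_det ρA hA bA bbar s₀).1 (by rw [map_add, htr0])
  have hdA : (matOfHom ρA bA s₀).det - algebraMap 𝒪 A (α' * β') ∈ maximalIdeal A :=
    sub_mem_of_residue_eq (residue_trace_det ρA hA bA bbar s₀).2 (by rw [map_mul, hdet0])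
  have htr : ∀ g, ((matOfHom ρA bA g).trace, (matOfHom ρB bB g).trace) ∈ J := fun g => by
    rw [matOfHom_apply, matOfHom_apply, ← trace_eq_matOf_trace, ← trace_eq_matOf_trace]
    exact trace_pair_mem 𝒪 ρA ρB g
  have hspan : Submodule.span A (Set.range (matOfHom ρA bA)) = ⊤ :=
    Fermat.Agent.S43lib.Loc.span_range_matOf_eq_top ρA (residual_absIrr_of_isEquiv habs ρA hA) bA
  obtain ⟨W, W', hWW', hW'W, hent⟩ := exists_conj_entries_mem J hJ (matOfHom ρA bA) (matOfHom ρB bB)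
    htr h2 hspan s₀ α' β' hunit htA hdA
  obtain ⟨rJ, hrJ⟩ := exists_descend (J.val : J →+* A × B) Subtype.val_injective
    (conjHom W W' hWW' hW'W (pairHom (matOfHom ρA bA) (matOfHom ρB bB)))
    (fun g i j => ⟨⟨_, hent g i j⟩, rfl⟩)
  exact ⟨W, W', rJ, hWW', hW'W, fun g => hrJ g⟩

include hA hB in
/-- **Stage B**: continuity of the descended representation -/
theorem matCont_of_descent (bA : Module.Basis (Fin 2) A ρA.V) (bB : Module.Basis (Fin 2) B ρB.V)
    [IsLocalRing (joinAlg 𝒪 ρA ρB)] (W W' : Matrix (Fin 2) (Fin 2) (A × B)) (hW'W : W' * W = 1)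
    (rJ : Γℚ →* Matrix (Fin 2) (Fin 2) (joinAlg 𝒪 ρA ρB))
    (hrJ : ∀ g, (rJ g).map (joinAlg 𝒪 ρA ρB).val =
      W' * pairMat (matOf ρA bA g) (matOf ρB bB g) * W) : MatCont rJ := by
  have hJ : joinAlg 𝒪 ρA ρB ≤ fib 𝒪 A B := joinAlg_le_fib ρA ρB hA hB
  intro n
  obtain ⟨ϖ, hϖ⟩ := IsDiscreteValuationRing.exists_irreducible 𝒪
  obtain ⟨m, hm⟩ := exists_mem_pow_of_mem (joinAlg 𝒪 ρA ρB) hJ ϖ hϖ.maximalIdeal_eq n
  obtain ⟨LA, hLA, hcA⟩ := matCont_matOf ρA bA m
  obtain ⟨LB, hLB, hcB⟩ := matCont_matOf ρB bB m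
  refine ⟨LA ⊔ LB, IntermediateField.finiteDimensional_sup LA LB, fun σ hσ i j => ?_⟩
  have hσA : ∀ x ∈ LA, σ x = x := fun x hx => hσ x ((le_sup_left : LA ≤ LA ⊔ LB) hx)
  have hσB : ∀ x ∈ LB, σ x = x := fun x hx => hσ x ((le_sup_right : LB ≤ LA ⊔ LB) hx)
  have h1 : (((rJ σ - 1) i j : joinAlg 𝒪 ρA ρB) : A × B) =
      (W' * pairMat (matOf ρA bA σ - 1) (matOf ρB bB σ - 1) * W :
        Matrix (Fin 2) (Fin 2) (A × B)) i j := by
    have e1 : pairMat (matOf ρA bA σ - 1) (matOf ρB bB σ - 1) =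
        pairMat (matOf ρA bA σ) (matOf ρB bB σ) - 1 := by
      ext a b <;> fin_cases a <;> fin_cases b <;> simp
    rw [e1, Matrix.mul_sub, Matrix.sub_mul, Matrix.mul_one, hW'W, ← hrJ σ]
    by_cases hij : i = j
    · subst hij; simp
    · simp [hij]
  have h2 : (((rJ σ - 1) i j : joinAlg 𝒪 ρA ρB) : A × B) ∈
      Ideal.prod (maximalIdeal A ^ m) (maximalIdeal B ^ m) := by
    rw [h1]
    refine entries_mul_mul_mem _ _ _ _ (fun a b => ?_) i j
    rw [pairMat_apply]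
    exact (Ideal.mem_prod _ _).mpr ⟨hcA σ hσA a b, hcB σ hσB a b⟩
  have h3 := (Ideal.mem_prod _ _).mp h2
  exact hm _ h3.1 h3.2

theorem coe_det_of_descent (bA : Module.Basis (Fin 2) A ρA.V) (bB : Module.Basis (Fin 2) B ρB.V)
    (W W' : Matrix (Fin 2) (Fin 2) (A × B)) (hWW' : W * W' = 1)
    (rJ : Γℚ →* Matrix (Fin 2) (Fin 2) (joinAlg 𝒪 ρA ρB))
    (hrJ : ∀ g, (rJ g).map (joinAlg 𝒪 ρA ρB).val =
      W' * pairMat (matOf ρA bA g) (matOf ρB bB g) * W) (σ : Γℚ) :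
    (((rJ σ).det : joinAlg 𝒪 ρA ρB) : A × B) =
      (LinearMap.det (ρA.ρ σ), LinearMap.det (ρB.ρ σ)) := by
  have h1 : (((rJ σ).det : joinAlg 𝒪 ρA ρB) : A × B) =
      ((rJ σ).map (joinAlg 𝒪 ρA ρB).val).det := by
    rw [Matrix.det_fin_two, Matrix.det_fin_two]
    simp
  rw [h1, hrJ, Matrix.det_mul, Matrix.det_mul, mul_right_comm, ← Matrix.det_mul,
    mul_eq_one_comm.mp hWW', Matrix.det_one, one_mul, pairMat_det, det_eq_matOf_det ρA bA,
    det_eq_matOf_det ρB bB]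

theorem coe_trace_of_descent (bA : Module.Basis (Fin 2) A ρA.V) (bB : Module.Basis (Fin 2) B ρB.V)
    (W W' : Matrix (Fin 2) (Fin 2) (A × B)) (hWW' : W * W' = 1)
    (rJ : Γℚ →* Matrix (Fin 2) (Fin 2) (joinAlg 𝒪 ρA ρB))
    (hrJ : ∀ g, (rJ g).map (joinAlg 𝒪 ρA ρB).val =
      W' * pairMat (matOf ρA bA g) (matOf ρB bB g) * W) (σ : Γℚ) :
    (((rJ σ).trace : joinAlg 𝒪 ρA ρB) : A × B) = (ρA.trace σ, ρB.trace σ) := by
  have h1 : (((rJ σ).trace : joinAlg 𝒪 ρA ρB) : A × B) =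
      ((rJ σ).map (joinAlg 𝒪 ρA ρB).val).trace := by
    rw [Matrix.trace_fin_two, Matrix.trace_fin_two]
    simp
  rw [h1, hrJ, trace_conj _ _ _ hWW', pairMat_trace, trace_eq_matOf_trace ρA bA,
    trace_eq_matOf_trace ρB bB]

include hA hB in
/-- **Stage C**: the determinant of the descended representation is cyclotomic -/
theorem detIsCyclotomic_of_descent (p : ℕ) (hp : p ≠ 0) (hdA : ρA.DetIsCyclotomic p)
    (hdB : ρB.DetIsCyclotomic p)
    (bA : Module.Basis (Fin 2) A ρA.V) (bB : Module.Basis (Fin 2) B ρB.V)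
    [IsLocalRing (joinAlg 𝒪 ρA ρB)] (W W' : Matrix (Fin 2) (Fin 2) (A × B)) (hWW' : W * W' = 1)
    (rJ : Γℚ →* Matrix (Fin 2) (Fin 2) (joinAlg 𝒪 ρA ρB))
    (hrJ : ∀ g, (rJ g).map (joinAlg 𝒪 ρA ρB).val =
      W' * pairMat (matOf ρA bA g) (matOf ρB bB g) * W) (hcont : MatCont rJ) :
    (matRep rJ hcont).DetIsCyclotomic p := by
  have hJ : joinAlg 𝒪 ρA ρB ≤ fib 𝒪 A B := joinAlg_le_fib ρA ρB hA hB
  refine ⟨?_, fun n σ a ha => ?_⟩
  · rw [mem_maximalIdeal_iff_fst _ hJ]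
    have : (((p : joinAlg 𝒪 ρA ρB)) : A × B).1 = (p : A) := by simp
    rw [this]
    exact hdA.1
  · obtain ⟨c, hc⟩ := exists_dvd_of_dvd (joinAlg 𝒪 ρA ρB) (p : 𝒪)
    obtain ⟨a', ha'⟩ := exists_cyclo_exp p hp (n + c) σ
    have hdet : LinearMap.det ((matRep rJ hcont).ρ σ) = (rJ σ).det := by
      rw [det_eq_matOf_det (matRep rJ hcont) (stdBasis rJ hcont), matOf_matRep]
    have hcast : ∀ (R : Type) [CommRing R] [Algebra 𝒪 R],
        (((p ^ (n + c) : ℕ)) : R) = algebraMap 𝒪 R ((p : 𝒪) ^ (n + c)) := by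
      intro R _ _
      rw [map_pow, map_natCast, Nat.cast_pow]
    have hyA : ∃ x : A, (((rJ σ).det - (a' : joinAlg 𝒪 ρA ρB) : joinAlg 𝒪 ρA ρB) : A × B).1 =
        algebraMap 𝒪 A ((p : 𝒪) ^ (n + c)) * x := by
      have h1 := hdA.2 (n + c) σ a' ha'
      rw [Ideal.mem_span_singleton'] at h1
      obtain ⟨x, hx⟩ := h1
      refine ⟨x, ?_⟩
      have : (((rJ σ).det - (a' : joinAlg 𝒪 ρA ρB) : joinAlg 𝒪 ρA ρB) : A × B).1 =
          LinearMap.det (ρA.ρ σ) - (a' : A) := by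
        show ((((rJ σ).det : joinAlg 𝒪 ρA ρB) : A × B) - ((a' : joinAlg 𝒪 ρA ρB) : A × B)).1 = _
        rw [coe_det_of_descent ρA ρB bA bB W W' hWW' rJ hrJ σ]
        simp
      rw [this, ← hx, hcast A, mul_comm]
    have hyB : ∃ x : B, (((rJ σ).det - (a' : joinAlg 𝒪 ρA ρB) : joinAlg 𝒪 ρA ρB) : A × B).2 =
        algebraMap 𝒪 B ((p : 𝒪) ^ (n + c)) * x := by
      have h1 := hdB.2 (n + c) σ a' ha'
      rw [Ideal.mem_span_singleton'] at h1
      obtain ⟨x, hx⟩ := h1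
      refine ⟨x, ?_⟩
      have : (((rJ σ).det - (a' : joinAlg 𝒪 ρA ρB) : joinAlg 𝒪 ρA ρB) : A × B).2 =
          LinearMap.det (ρB.ρ σ) - (a' : B) := by
        show ((((rJ σ).det : joinAlg 𝒪 ρA ρB) : A × B) - ((a' : joinAlg 𝒪 ρA ρB) : A × B)).2 = _
        rw [coe_det_of_descent ρA ρB bA bB W W' hWW' rJ hrJ σ]
        simp
      rw [this, ← hx, hcast B, mul_comm]
    obtain ⟨z, hz⟩ := hc n _ hyA hyB
    have h3 : (rJ σ).det - (a' : joinAlg 𝒪 ρA ρB) ∈
        Ideal.span {((p ^ n : ℕ) : joinAlg 𝒪 ρA ρB)} := by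
      rw [hz, Ideal.mem_span_singleton']
      refine ⟨z, ?_⟩
      rw [mul_comm, map_pow, map_natCast, Nat.cast_pow]
    have h4 : (a' : joinAlg 𝒪 ρA ρB) - (a : joinAlg 𝒪 ρA ρB) ∈
        Ideal.span {((p ^ n : ℕ) : joinAlg 𝒪 ρA ρB)} := by
      have := cyclo_exp_congr p hp (Nat.le_add_right n c) σ a a' ha ha'
      have h5 := natCast_sub_mem_span (R := joinAlg 𝒪 ρA ρB) this
      have h6 := Ideal.neg_mem_iff _ |>.mpr h5
      rwa [neg_sub] at h6
    rw [hdet]
    have : (rJ σ).det - (a : joinAlg 𝒪 ρA ρB) =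
        ((rJ σ).det - (a' : joinAlg 𝒪 ρA ρB)) + ((a' : joinAlg 𝒪 ρA ρB) - a) := by ring
    rw [this]
    exact Ideal.add_mem _ h3 h4

include hA hB in
theorem residue_eq_of_fst_sub_mem [IsLocalRing (joinAlg 𝒪 ρA ρB)]
    [IsLocalHom (algebraMap 𝒪 (joinAlg 𝒪 ρA ρB))] (x : joinAlg 𝒪 ρA ρB) (c : 𝒪)
    (h : (x : A × B).1 - algebraMap 𝒪 A c ∈ maximalIdeal A) :
    residue (joinAlg 𝒪 ρA ρB) x =
      ResidueField.map (algebraMap 𝒪 (joinAlg 𝒪 ρA ρB)) (residue 𝒪 c) := by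
  have hJ : joinAlg 𝒪 ρA ρB ≤ fib 𝒪 A B := joinAlg_le_fib ρA ρB hA hB
  rw [ResidueField.map_residue, ← sub_eq_zero, ← map_sub, residue_eq_zero_iff,
    mem_maximalIdeal_iff_fst _ hJ]
  exact h

include hA hB habs in
/-- **Stage D**: the descended representation lifts `ρbar` -/
theorem residual_isEquiv_of_descent
    (bA : Module.Basis (Fin 2) A ρA.V) (bB : Module.Basis (Fin 2) B ρB.V)
    [IsLocalRing (joinAlg 𝒪 ρA ρB)] [IsLocalHom (algebraMap 𝒪 (joinAlg 𝒪 ρA ρB))]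
    (W W' : Matrix (Fin 2) (Fin 2) (A × B)) (hWW' : W * W' = 1)
    (rJ : Γℚ →* Matrix (Fin 2) (Fin 2) (joinAlg 𝒪 ρA ρB))
    (hrJ : ∀ g, (rJ g).map (joinAlg 𝒪 ρA ρB).val =
      W' * pairMat (matOf ρA bA g) (matOf ρB bB g) * W) (hcont : MatCont rJ) :
    (matRep rJ hcont).residual.IsEquiv
      (ρbar.baseChangeAlong (ResidueField.map (algebraMap 𝒪 (joinAlg 𝒪 ρA ρB)))) := by
  let bbar : Module.Basis (Fin 2) (ResidueField 𝒪) ρbar.V :=
    Module.finBasisOfFinrankEq _ ρbar.V ρbar.finrank_eq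
  set ι := ResidueField.map (algebraMap 𝒪 (joinAlg 𝒪 ρA ρB)) with hι
  have habs₁ : (ρbar.baseChangeAlong ι).IsAbsolutelyIrreducible := by
    refine Fermat.Agent.S43lib.B3.res_absIrr_of_span _ (resBcBasis ι ρbar bbar) ?_
    have h3 := Fermat.Agent.S43lib.B3.span_range_map_eq_top ι _
      (Fermat.Agent.S43lib.Loc.span_range_matOfRes_eq_top ρbar habs bbar)
    have h5 : matOfRes (ρbar.baseChangeAlong ι) (resBcBasis ι ρbar bbar) = fun g =>
        (matOfRes ρbar bbar g).map ι := funext fun g => matOfRes_baseChangeAlong ι ρbar bbar g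
    rw [h5]; exact h3
  have hcp : ∀ σ, LinearMap.charpoly ((ρbar.baseChangeAlong ι).ρ σ) =
      LinearMap.charpoly ((matRep rJ hcont).residual.ρ σ) := by
    intro σ
    have e1 : LinearMap.charpoly ((ρbar.baseChangeAlong ι).ρ σ) =
        ((matOfRes ρbar bbar σ).map ι).charpoly := by
      rw [← matOfRes_baseChangeAlong ι ρbar bbar σ]
      exact (LinearMap.charpoly_toMatrix _ (resBcBasis ι ρbar bbar)).symm
    have e2 : LinearMap.charpoly ((matRep rJ hcont).residual.ρ σ) =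
        ((rJ σ).map (residue (joinAlg 𝒪 ρA ρB))).charpoly := by
      rw [← matOf_matRep rJ hcont σ, ← matOfRes_residual (matRep rJ hcont) (stdBasis rJ hcont) σ]
      exact (LinearMap.charpoly_toMatrix _ (residualBasis (matRep rJ hcont) (stdBasis rJ hcont))).symm
    rw [e1, e2, Matrix.charpoly_fin_two, Matrix.charpoly_fin_two]
    obtain ⟨ct, hct⟩ := residue_surjective (matOfRes ρbar bbar σ).trace
    obtain ⟨cd, hcd⟩ := residue_surjective (matOfRes ρbar bbar σ).det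
    have ht : ((rJ σ).map (residue (joinAlg 𝒪 ρA ρB))).trace =
        ((matOfRes ρbar bbar σ).map ι).trace := by
      have h1 : ((rJ σ).map (residue (joinAlg 𝒪 ρA ρB))).trace =
          residue (joinAlg 𝒪 ρA ρB) (rJ σ).trace := by
        rw [Matrix.trace_fin_two, Matrix.trace_fin_two, map_add]; rfl
      have h2 : ((matOfRes ρbar bbar σ).map ι).trace = ι (matOfRes ρbar bbar σ).trace := by
        rw [Matrix.trace_fin_two, Matrix.trace_fin_two, map_add]; rfl
      rw [h1, h2, ← hct]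
      refine residue_eq_of_fst_sub_mem ρA ρB hA hB _ ct ?_
      rw [coe_trace_of_descent ρA ρB bA bB W W' hWW' rJ hrJ σ]
      show ρA.trace σ - _ ∈ _
      rw [trace_eq_matOf_trace ρA bA]
      exact sub_mem_of_residue_eq (residue_trace_det ρA hA bA bbar σ).1 hct
    have hd : ((rJ σ).map (residue (joinAlg 𝒪 ρA ρB))).det =
        ((matOfRes ρbar bbar σ).map ι).det := by
      have h1 : ((rJ σ).map (residue (joinAlg 𝒪 ρA ρB))).det =
          residue (joinAlg 𝒪 ρA ρB) (rJ σ).det := by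
        rw [Matrix.det_fin_two, Matrix.det_fin_two, map_sub, map_mul, map_mul]; rfl
      have h2 : ((matOfRes ρbar bbar σ).map ι).det = ι (matOfRes ρbar bbar σ).det := by
        rw [Matrix.det_fin_two, Matrix.det_fin_two, map_sub, map_mul, map_mul]; rfl
      rw [h1, h2, ← hcd]
      refine residue_eq_of_fst_sub_mem ρA ρB hA hB _ cd ?_
      rw [coe_det_of_descent ρA ρB bA bB W W' hWW' rJ hrJ σ]
      show LinearMap.det (ρA.ρ σ) - _ ∈ _
      rw [det_eq_matOf_det ρA bA]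
      exact sub_mem_of_residue_eq (residue_trace_det ρA hA bA bbar σ).2 hcd
    rw [ht, hd]
  obtain ⟨e⟩ := Fermat.Agent.S43lib.Loc.res_isEquiv_of_charpoly_eq _ _ habs₁ hcp
  exact ⟨e.symm⟩

end Join

section Pkg

variable (𝒪 : Type) [CommRing 𝒪] [IsDomain 𝒪] [IsDiscreteValuationRing 𝒪]
  [IsAdicComplete (maximalIdeal 𝒪) 𝒪]
  (ρbar : ResidualGaloisRep (ResidueField 𝒪))
  {A B : Type} [CommRing A] [CommRing B] [IsLocalRing A] [IsLocalRing B] [Algebra 𝒪 A] [Algebra 𝒪 B]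
  [IsLocalHom (algebraMap 𝒪 A)] [IsLocalHom (algebraMap 𝒪 B)]
  (ρA : GaloisRepAdic A) (ρB : GaloisRepAdic B)

/-- **The join of two lifts `ρA`, `ρB` of `ρbar`**: a complete noetherian local `𝒪`-algebra `R`, finite over
`𝒪`, with residue field `k`, generated by the traces of a lift `ρ` of `ρbar`, with two jointly injective local
`𝒪`-algebra homomorphisms `prA : R → A`, `prB : R → B` pushing `ρ` to `ρA` and `ρB`. -/
structure JoinPkg : Type 1 where
  R : Type
  [instCommRing : CommRing R]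
  [instIsLocalRing : IsLocalRing R]
  [instIsNoetherianRing : IsNoetherianRing R]
  [instIsAdicComplete : IsAdicComplete (maximalIdeal R) R]
  [instAlgebra : Algebra 𝒪 R]
  [instIsLocalHom : IsLocalHom (algebraMap 𝒪 R)]
  [instFinite : Module.Finite 𝒪 R]
  residue_surjective : Function.Surjective (residue R ∘ algebraMap 𝒪 R)
  ρ : GaloisRepAdic R
  residual_isEquiv : ρ.residual.IsEquiv
    (ρbar.baseChangeAlong (ResidueField.map (algebraMap 𝒪 R)))
  /-- `R` is generated by the traces -/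
  trace_gen : ∀ (A' : Type) [CommRing A'] [Algebra 𝒪 A'] (φ φ' : R →ₐ[𝒪] A'),
    (∀ σ, φ (ρ.trace σ) = φ' (ρ.trace σ)) → φ = φ'
  prA : R →ₐ[𝒪] A
  prB : R →ₐ[𝒪] B
  prA_local : IsLocalHom (prA : R →+* A)
  prB_local : IsLocalHom (prB : R →+* B)
  joint_injective : ∀ x : R, prA x = 0 → prB x = 0 → x = 0
  isEquivA : (ρ.baseChangeAlong (prA : R →+* A) prA_local).IsEquiv ρA
  isEquivB : (ρ.baseChangeAlong (prB : R →+* B) prB_local).IsEquiv ρB
  trace_prA : ∀ σ, prA (ρ.trace σ) = ρA.trace σ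
  trace_prB : ∀ σ, prB (ρ.trace σ) = ρB.trace σ
  detCyc : ∀ p : ℕ, p ≠ 0 → ρA.DetIsCyclotomic p → ρB.DetIsCyclotomic p → ρ.DetIsCyclotomic p

attribute [instance] JoinPkg.instCommRing JoinPkg.instIsLocalRing JoinPkg.instIsNoetherianRing
  JoinPkg.instIsAdicComplete JoinPkg.instAlgebra JoinPkg.instIsLocalHom JoinPkg.instFinite

variable {𝒪 ρbar ρA ρB}

/-- the projection to `A` is surjective when `A` is generated by the traces of `ρA` -/
theorem JoinPkg.prA_surjective [Module.Finite 𝒪 A] (P : JoinPkg 𝒪 ρbar ρA ρB)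
    (hgen : ∀ (A' : Type) [CommRing A'] [Algebra 𝒪 A'] (φ φ' : A →ₐ[𝒪] A'),
      (∀ σ, φ (ρA.trace σ) = φ' (ρA.trace σ)) → φ = φ') : Function.Surjective P.prA :=
  surjective_of_epi P.prA fun A' _ _ φ φ' h => hgen A' φ φ' fun σ => by
    rw [← P.trace_prA σ]; exact h _

/-- the projection to `B` is surjective when `B` is generated by the traces of `ρB` -/
theorem JoinPkg.prB_surjective [Module.Finite 𝒪 B] (P : JoinPkg 𝒪 ρbar ρA ρB)
    (hgen : ∀ (A' : Type) [CommRing A'] [Algebra 𝒪 A'] (φ φ' : B →ₐ[𝒪] A'),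
      (∀ σ, φ (ρB.trace σ) = φ' (ρB.trace σ)) → φ = φ') : Function.Surjective P.prB :=
  surjective_of_epi P.prB fun A' _ _ φ φ' h => hgen A' φ φ' fun σ => by
    rw [← P.trace_prB σ]; exact h _

variable [Module.Finite 𝒪 A] [Module.Finite 𝒪 B]

/-- **JOIN-core**: the join of two lifts of an absolutely irreducible `ρbar` exists. -/
theorem nonempty_joinPkg (habs : ρbar.IsAbsolutelyIrreducible) (h2 : IsUnit (2 : 𝒪))
    (hs₀ : ∃ (s₀ : Γℚ) (α β : ResidueField 𝒪), α ≠ β ∧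
      LinearMap.charpoly (ρbar.ρ s₀) = (X - C α) * (X - C β))
    (hA : ρA.residual.IsEquiv (ρbar.baseChangeAlong (ResidueField.map (algebraMap 𝒪 A))))
    (hB : ρB.residual.IsEquiv (ρbar.baseChangeAlong (ResidueField.map (algebraMap 𝒪 B)))) :
    Nonempty (JoinPkg 𝒪 ρbar ρA ρB) := by
  have hJ : joinAlg 𝒪 ρA ρB ≤ fib 𝒪 A B := joinAlg_le_fib ρA ρB hA hB
  haveI hloc : IsLocalRing (joinAlg 𝒪 ρA ρB) := isLocalRing_of_le_fib _ hJ
  haveI hfin : Module.Finite 𝒪 (joinAlg 𝒪 ρA ρB) := finite_of_subalgebra _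
  haveI hnoeth : IsNoetherianRing (joinAlg 𝒪 ρA ρB) := isNoetherianRing_of_subalgebra _
  haveI hlh : IsLocalHom (algebraMap 𝒪 (joinAlg 𝒪 ρA ρB)) := isLocalHom_algebraMap_of_le_fib _ hJ
  haveI hcompl : IsAdicComplete (maximalIdeal (joinAlg 𝒪 ρA ρB)) (joinAlg 𝒪 ρA ρB) :=
    isAdicComplete_of_le_fib _ hJ
  let bA : Module.Basis (Fin 2) A ρA.V := Module.finBasisOfFinrankEq A ρA.V ρA.finrank_eq
  let bB : Module.Basis (Fin 2) B ρB.V := Module.finBasisOfFinrankEq B ρB.V ρB.finrank_eq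
  obtain ⟨W, W', rJ, hWW', hW'W, hrJ⟩ := exists_descent ρA ρB hA hB habs h2 hs₀ bA bB
  have hcont : MatCont rJ := matCont_of_descent ρA ρB hA hB bA bB W W' hW'W rJ hrJ
  have htrace : ∀ σ, (((matRep rJ hcont).trace σ : joinAlg 𝒪 ρA ρB) : A × B) =
      (ρA.trace σ, ρB.trace σ) := fun σ => by
    rw [trace_eq_matOf_trace (matRep rJ hcont) (stdBasis rJ hcont), matOf_matRep]
    exact coe_trace_of_descent ρA ρB bA bB W W' hWW' rJ hrJ σ
  have hlA := isLocalHom_fst_of_le_fib (joinAlg 𝒪 ρA ρB) hJ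
  have hlB := isLocalHom_snd_of_le_fib (joinAlg 𝒪 ρA ρB) hJ
  -- the components of the conjugating matrices
  set WA := W.map (RingHom.fst A B) with hWA
  set WA' := W'.map (RingHom.fst A B) with hWA'
  set WB := W.map (RingHom.snd A B) with hWB
  set WB' := W'.map (RingHom.snd A B) with hWB'
  have hWAA' : WA * WA' = 1 := by
    rw [hWA, hWA', ← Matrix.map_mul, hWW', Matrix.map_one _ (map_zero _) (map_one _)]
  have hWA'A : WA' * WA = 1 := by
    rw [hWA, hWA', ← Matrix.map_mul, hW'W, Matrix.map_one _ (map_zero _) (map_one _)]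
  have hWBB' : WB * WB' = 1 := by
    rw [hWB, hWB', ← Matrix.map_mul, hWW', Matrix.map_one _ (map_zero _) (map_one _)]
  have hWB'B : WB' * WB = 1 := by
    rw [hWB, hWB', ← Matrix.map_mul, hW'W, Matrix.map_one _ (map_zero _) (map_one _)]
  have hmapA : ∀ g, (rJ g).map (((AlgHom.fst 𝒪 A B).comp (joinAlg 𝒪 ρA ρB).val :
      joinAlg 𝒪 ρA ρB →ₐ[𝒪] A) : joinAlg 𝒪 ρA ρB →+* A) = WA' * matOf ρA bA g * WA := by
    intro g
    have h1 : (rJ g).map (((AlgHom.fst 𝒪 A B).comp (joinAlg 𝒪 ρA ρB).val :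
        joinAlg 𝒪 ρA ρB →ₐ[𝒪] A) : joinAlg 𝒪 ρA ρB →+* A) =
        ((rJ g).map (joinAlg 𝒪 ρA ρB).val).map (RingHom.fst A B) := by
      ext i j; rfl
    rw [h1, hrJ, Matrix.map_mul, Matrix.map_mul, pairMat_map_fst]
  have hmapB : ∀ g, (rJ g).map (((AlgHom.snd 𝒪 A B).comp (joinAlg 𝒪 ρA ρB).val :
      joinAlg 𝒪 ρA ρB →ₐ[𝒪] B) : joinAlg 𝒪 ρA ρB →+* B) = WB' * matOf ρB bB g * WB := by
    intro g
    have h1 : (rJ g).map (((AlgHom.snd 𝒪 A B).comp (joinAlg 𝒪 ρA ρB).val :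
        joinAlg 𝒪 ρA ρB →ₐ[𝒪] B) : joinAlg 𝒪 ρA ρB →+* B) =
        ((rJ g).map (joinAlg 𝒪 ρA ρB).val).map (RingHom.snd A B) := by
      ext i j; rfl
    rw [h1, hrJ, Matrix.map_mul, Matrix.map_mul, pairMat_map_snd]
  refine ⟨{ R := joinAlg 𝒪 ρA ρB
            residue_surjective := residue_surjective_of_le_fib _ hJ
            ρ := matRep rJ hcont
            residual_isEquiv :=
              residual_isEquiv_of_descent ρA ρB hA hB habs bA bB W W' hWW' rJ hrJ hcont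
            trace_gen := ?_
            prA := (AlgHom.fst 𝒪 A B).comp (joinAlg 𝒪 ρA ρB).val
            prB := (AlgHom.snd 𝒪 A B).comp (joinAlg 𝒪 ρA ρB).val
            prA_local := hlA
            prB_local := hlB
            joint_injective := ?_
            isEquivA := ?_
            isEquivB := ?_
            trace_prA := fun σ => congrArg Prod.fst (htrace σ)
            trace_prB := fun σ => congrArg Prod.snd (htrace σ)
            detCyc := fun p hp hdA hdB =>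
              detIsCyclotomic_of_descent ρA ρB hA hB p hp hdA hdB bA bB W W' hWW' rJ hrJ hcont }⟩
  · intro A' _ _ φ φ' h
    refine AlgHom.ext_of_eq_adjoin (rfl : joinAlg 𝒪 ρA ρB = Algebra.adjoin 𝒪 _) ?_
    rintro _ ⟨σ, rfl⟩
    have := h σ
    have e : (matRep rJ hcont).trace σ = ⟨(ρA.trace σ, ρB.trace σ), trace_pair_mem 𝒪 ρA ρB σ⟩ :=
      Subtype.ext (htrace σ)
    rw [e] at this
    exact this
  · intro x h1 h2
    exact Subtype.ext (Prod.ext h1 h2)
  · refine isEquiv_of_conj _ ρA (bcBasis _ hlA (matRep rJ hcont) (stdBasis rJ hcont)) bA WA WA'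
      hWAA' hWA'A fun g => ?_
    rw [matOf_baseChangeAlong, matOf_matRep, hmapA, ← Matrix.mul_assoc, ← Matrix.mul_assoc, hWAA',
      Matrix.one_mul]
  · refine isEquiv_of_conj _ ρB (bcBasis _ hlB (matRep rJ hcont) (stdBasis rJ hcont)) bB WB WB'
      hWBB' hWB'B fun g => ?_
    rw [matOf_baseChangeAlong, matOf_matRep, hmapB, ← Matrix.mul_assoc, ← Matrix.mul_assoc, hWBB',
      Matrix.one_mul]

/-- **the join** (a choice of) -/
def join (habs : ρbar.IsAbsolutelyIrreducible) (h2 : IsUnit (2 : 𝒪))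
    (hs₀ : ∃ (s₀ : Γℚ) (α β : ResidueField 𝒪), α ≠ β ∧
      LinearMap.charpoly (ρbar.ρ s₀) = (X - C α) * (X - C β))
    (hA : ρA.residual.IsEquiv (ρbar.baseChangeAlong (ResidueField.map (algebraMap 𝒪 A))))
    (hB : ρB.residual.IsEquiv (ρbar.baseChangeAlong (ResidueField.map (algebraMap 𝒪 B)))) :
    JoinPkg 𝒪 ρbar ρA ρB :=
  Classical.choice (nonempty_joinPkg habs h2 hs₀ hA hB)

end Pkg

end Fermat.Agent.S59lib.Join
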